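import Fermat.Agent.S21.PeriodInjective
import Fermat.Agent.Genus.Conv

set_option autoImplicit false
set_option linter.unusedSectionVars false

/-!
# Periods of weight two cusp forms for a general finite index subgroup of `SL(2, ℤ)`
-/

open UpperHalfPlane Filter Topology Complex Function CongruenceSubgroup
open scoped MatrixGroups Manifold ModularForm Real ComplexConjugate

noncomputable section

namespace Fermat.Agent.GenES

open Fermat.Agent.S21per

local notation "𝕢" => Function.Periodic.qParam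

variable (Γ : Subgroup SL(2, ℤ)) [Γ.FiniteIndex]

/-- A common period of all translates. -/
def perN : ℕ := Γ.normalCore.index

lemma perN_ne_zero : perN Γ ≠ 0 := Subgroup.FiniteIndex.index_ne_zero

lemma perN_pos : (0 : ℝ) < perN Γ := by
  exact_mod_cast Nat.pos_of_ne_zero (perN_ne_zero Γ)

lemma conj_T_pow_mem (δ : SL(2, ℤ)) : δ * ModularGroup.T ^ perN Γ * δ⁻¹ ∈ Γ := by
  have h1 : ModularGroup.T ^ perN Γ ∈ Γ.normalCore := Subgroup.pow_index_mem _ _
  exact Subgroup.normalCore_le Γ ((Subgroup.normalCore_normal Γ).conj_mem _ h1 δ)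

variable {Γ}

lemma cusp_slash_mem (f : CuspForm (Γ : Subgroup (GL (Fin 2) ℝ)) 2) {γ : SL(2, ℤ)} (hγ : γ ∈ Γ) :
    (f : ℍ → ℂ) ∣[(2 : ℤ)] γ = f :=
  f.slash_action_eq' _ ⟨γ, hγ, rfl⟩

lemma cusp_slash_periodic (f : CuspForm (Γ : Subgroup (GL (Fin 2) ℝ)) 2) (δ : SL(2, ℤ)) :
    Periodic (((f : ℍ → ℂ) ∣[(2 : ℤ)] δ) ∘ ofComplex) (perN Γ : ℝ) := by
  apply periodic_comp_ofComplex_of_vadd
  intro τ
  rw [← slash_T_pow_apply ((f : ℍ → ℂ) ∣[(2 : ℤ)] δ) 2 (perN Γ) τ, ← SlashAction.slash_mul,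
    show δ * ModularGroup.T ^ perN Γ = (δ * ModularGroup.T ^ perN Γ * δ⁻¹) * δ by group,
    SlashAction.slash_mul, cusp_slash_mem f (conj_T_pow_mem Γ δ)]

lemma cusp_slash_zero (f : CuspForm (Γ : Subgroup (GL (Fin 2) ℝ)) 2) (δ : SL(2, ℤ)) :
    IsZeroAtImInfty ((f : ℍ → ℂ) ∣[(2 : ℤ)] δ) := by
  have h1 : IsCusp (Matrix.SpecialLinearGroup.mapGL ℝ δ • OnePoint.infty)
      (𝒮ℒ) := isCusp_SL2Z_iff'.mpr ⟨δ, rfl⟩
  have h2 : IsCusp (Matrix.SpecialLinearGroup.mapGL ℝ δ • OnePoint.infty)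
      (Γ : Subgroup (GL (Fin 2) ℝ)) := by
    rwa [Subgroup.IsArithmetic.isCusp_iff_isCusp_SL2Z]
  exact (OnePoint.isZeroAt_iff_forall_SL2Z h1).mp (f.zero_at_cusps' h2) δ rfl

lemma cusp_slash_mdiff (f : CuspForm (Γ : Subgroup (GL (Fin 2) ℝ)) 2) (δ : SL(2, ℤ)) :
    MDiff ((f : ℍ → ℂ) ∣[(2 : ℤ)] δ) := by
  have := MDifferentiable.slash f.holo' 2 (δ : GL (Fin 2) ℝ)
  simpa [ModularForm.SL_slash] using! this

/-- A primitive vanishing at infinity. -/
structure GPrim (f : CuspForm (Γ : Subgroup (GL (Fin 2) ℝ)) 2) (F : ℍ → ℂ) : Prop where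
  prim : IsPrim f F
  zero : Tendsto F atImInfty (𝓝 0)

lemma exists_gprim (f : CuspForm (Γ : Subgroup (GL (Fin 2) ℝ)) 2) : ∃ F, GPrim f F := by
  have h1 := cusp_slash_periodic f 1
  have h2 := cusp_slash_mdiff f 1
  have h3 := cusp_slash_zero f 1
  rw [SlashAction.slash_one] at h1 h2 h3
  obtain ⟨F, hF, hF0, -⟩ := exists_prim_of_periodic (perN_pos Γ) h1 h2 h3
  exact ⟨F, hF, hF0⟩

namespace GPrim

variable {f : CuspForm (Γ : Subgroup (GL (Fin 2) ℝ)) 2} {F : ℍ → ℂ}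

lemma mdiff (hF : GPrim f F) : MDiff F := hF.prim.mdifferentiable

lemma cusp (hF : GPrim f F) (δ : SL(2, ℤ)) :
    ∃ L : ℂ, Tendsto (fun w : ℍ ↦ F (δ • w)) atImInfty (𝓝 L) := by
  obtain ⟨G, hG, hG0, -⟩ := exists_prim_of_periodic (perN_pos Γ) (cusp_slash_periodic f δ)
    (cusp_slash_mdiff f δ) (cusp_slash_zero f δ)
  have h := (hF.prim.smul δ).sub_eq_sub hG
  refine ⟨F (δ • UpperHalfPlane.I) - G UpperHalfPlane.I, ?_⟩
  have h2 : (fun w : ℍ ↦ F (δ • w)) =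
      fun w ↦ G w + (F (δ • UpperHalfPlane.I) - G UpperHalfPlane.I) := by
    ext w
    linear_combination h w UpperHalfPlane.I
  rw [h2]
  simpa using hG0.add_const (F (δ • UpperHalfPlane.I) - G UpperHalfPlane.I)

lemma period_const (hF : GPrim f F) {γ : SL(2, ℤ)} (hγ : γ ∈ Γ) (z w : ℍ) :
    F (γ • z) - F z = F (γ • w) - F w := by
  have h1 := hF.prim.smul γ
  rw [cusp_slash_mem f hγ] at h1
  exact h1.sub_eq_sub hF.prim z w

lemma unique {G : ℍ → ℂ} (hF : GPrim f F) (hG : GPrim f G) : F = G := by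
  have h := hF.prim.sub_eq_sub hG.prim
  have h2 : Tendsto (fun w : ℍ ↦ F w - G w) atImInfty (𝓝 0) := by
    simpa using hF.zero.sub hG.zero
  ext z
  have h3 : Tendsto (fun w : ℍ ↦ F w - G w) atImInfty (𝓝 (F z - G z)) := by
    have : (fun w : ℍ ↦ F w - G w) = fun _ ↦ F z - G z := by
      ext w; exact h w z
    rw [this]; exact tendsto_const_nhds
  have := tendsto_nhds_unique h3 h2
  linear_combination this

lemma add {f g : CuspForm (Γ : Subgroup (GL (Fin 2) ℝ)) 2} {F G : ℍ → ℂ} (hF : GPrim f F)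
    (hG : GPrim g G) : GPrim (f + g) (F + G) where
  prim := by
    have := hF.prim.add hG.prim
    simpa using this
  zero := by simpa using! hF.zero.add hG.zero

lemma smul {f : CuspForm (Γ : Subgroup (GL (Fin 2) ℝ)) 2} {F : ℍ → ℂ} (c : ℂ)
    (hF : GPrim f F) : GPrim (c • f) (c • F) where
  prim := by
    have := hF.prim.const_smul c
    simpa using this
  zero := by simpa using! hF.zero.const_smul c

end GPrim

/-- the chosen primitive -/
def prm (f : CuspForm (Γ : Subgroup (GL (Fin 2) ℝ)) 2) : ℍ → ℂ := (exists_gprim f).choose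

lemma prm_spec (f : CuspForm (Γ : Subgroup (GL (Fin 2) ℝ)) 2) : GPrim f (prm f) :=
  (exists_gprim f).choose_spec

/-- The period homomorphism of a cusp form. -/
def per (f : CuspForm (Γ : Subgroup (GL (Fin 2) ℝ)) 2) : Additive Γ →+ ℂ where
  toFun γ := prm f ((Additive.toMul γ : Γ) • UpperHalfPlane.I) - prm f UpperHalfPlane.I
  map_zero' := by simp
  map_add' a b := by
    have h := (prm_spec f).period_const (Additive.toMul a).2
      (((Additive.toMul b : Γ) : SL(2, ℤ)) • UpperHalfPlane.I) UpperHalfPlane.I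
    change prm f (((Additive.toMul a * Additive.toMul b : Γ) : SL(2, ℤ)) • UpperHalfPlane.I) -
      prm f UpperHalfPlane.I = _
    rw [Subgroup.coe_mul, mul_smul]
    change _ = (prm f (((Additive.toMul a : Γ) : SL(2, ℤ)) • UpperHalfPlane.I) -
      prm f UpperHalfPlane.I) + (prm f (((Additive.toMul b : Γ) : SL(2, ℤ)) • UpperHalfPlane.I) -
      prm f UpperHalfPlane.I)
    linear_combination h

lemma GPrim.per_apply {f : CuspForm (Γ : Subgroup (GL (Fin 2) ℝ)) 2} {F : ℍ → ℂ}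
    (hF : GPrim f F) (γ : Γ) (z : ℍ) :
    per f (Additive.ofMul γ) = F ((γ : SL(2, ℤ)) • z) - F z := by
  rw [hF.unique (prm_spec f)]
  exact (prm_spec f).period_const γ.2 _ _

variable (Γ) in
/-- The linear period map. -/
def perLin : CuspForm (Γ : Subgroup (GL (Fin 2) ℝ)) 2 →ₗ[ℂ] (Additive Γ →+ ℂ) where
  toFun f := per f
  map_add' f g := by
    obtain ⟨F, hF⟩ := exists_gprim f
    obtain ⟨G, hG⟩ := exists_gprim g
    ext γ
    change per (f + g) (Additive.ofMul γ) = per f (Additive.ofMul γ) + per g (Additive.ofMul γ)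
    rw [(hF.add hG).per_apply _ UpperHalfPlane.I, hF.per_apply _ UpperHalfPlane.I,
      hG.per_apply _ UpperHalfPlane.I]
    simp only [Pi.add_apply]
    ring
  map_smul' c f := by
    obtain ⟨F, hF⟩ := exists_gprim f
    ext γ
    change per (c • f) (Additive.ofMul γ) = c • per f (Additive.ofMul γ)
    rw [(hF.smul c).per_apply _ UpperHalfPlane.I, hF.per_apply _ UpperHalfPlane.I]
    simp only [Pi.smul_apply, smul_eq_mul]
    ring

lemma per_mem_parabolicHoms (f : CuspForm (Γ : Subgroup (GL (Fin 2) ℝ)) 2) :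
    per f ∈ ModularCurve.Period.parabolicHoms ℂ Γ ℂ := by
  rw [ModularCurve.Period.mem_parabolicHoms_iff]
  intro γ hγ
  obtain ⟨F, hF⟩ := exists_gprim f
  obtain ⟨δ, m, hδ⟩ := exists_conj_translation (γ : SL(2, ℤ)) hγ
  obtain ⟨L, hL⟩ := hF.cusp δ
  have h1 : ∀ w : ℍ, per f (Additive.ofMul γ) = F (δ • ((m : ℝ) +ᵥ w)) - F (δ • w) := by
    intro w
    rw [← hδ w]
    exact hF.per_apply γ (δ • w)
  have h2 : Tendsto (fun w : ℍ ↦ F (δ • ((m : ℝ) +ᵥ w)) - F (δ • w)) atImInfty (𝓝 (L - L)) :=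
    (hL.comp (tendsto_vadd_atImInfty m)).sub hL
  have h3 : Tendsto (fun _ : ℍ ↦ per f (Additive.ofMul γ)) atImInfty (𝓝 (L - L)) := by
    refine h2.congr fun w ↦ (h1 w).symm
  have := tendsto_nhds_unique tendsto_const_nhds h3
  rw [this, sub_self]

/-! ### The maximum principle -/

variable (Γ) in
/-- A holomorphic function, periodic and bounded at all cusps. -/
structure GNice (H : ℍ → ℂ) : Prop where
  mdiff : MDiff H
  per : ∀ (δ : SL(2, ℤ)) (w : ℍ), H (δ • ((perN Γ : ℝ) +ᵥ w)) = H (δ • w)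
  bdd : ∀ δ : SL(2, ℤ), IsBoundedAtImInfty (fun w : ℍ ↦ H (δ • w))

section max

variable {H : ℍ → ℂ}

instance : Finite (SL(2, ℤ) ⧸ Γ) := Subgroup.finite_quotient_of_finiteIndex

instance : Fintype (SL(2, ℤ) ⧸ Γ) := Fintype.ofFinite _

/-- the component functions -/
def gcomp (H : ℍ → ℂ) (q : SL(2, ℤ) ⧸ Γ) (w : ℍ) : ℂ := Complex.exp (H (q.out⁻¹ • w))

lemma re_gcomp_eq (hinv : ∀ γ ∈ Γ, ∀ z : ℍ, (H (γ • z)).re = (H z).re)
    (g : SL(2, ℤ)) (w : ℍ) :
    (H (((g : SL(2, ℤ) ⧸ Γ).out)⁻¹ • w)).re = (H (g⁻¹ • w)).re := by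
  obtain ⟨γ, hγ⟩ := QuotientGroup.mk_out_eq_mul Γ g
  rw [hγ, mul_inv_rev, mul_smul]
  exact hinv _ (inv_mem γ.2) _

lemma norm_gcomp (q : SL(2, ℤ) ⧸ Γ) (w : ℍ) :
    ‖gcomp H q w‖ = Real.exp ((H (q.out⁻¹ • w)).re) := by
  rw [gcomp, Complex.norm_exp]

lemma sum_norm_smul (hinv : ∀ γ ∈ Γ, ∀ z : ℍ, (H (γ • z)).re = (H z).re)
    (a : SL(2, ℤ)) (w : ℍ) :
    ∑ q : SL(2, ℤ) ⧸ Γ, ‖gcomp H q (a • w)‖ ^ 2 = ∑ q : SL(2, ℤ) ⧸ Γ, ‖gcomp H q w‖ ^ 2 := by
  refine Fintype.sum_equiv (MulAction.toPerm a⁻¹) _ _ fun q ↦ ?_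
  rw [norm_gcomp, norm_gcomp]
  congr 2
  induction q using QuotientGroup.induction_on with
  | H g =>
    rw [re_gcomp_eq hinv, MulAction.toPerm_apply, MulAction.Quotient.smul_coe, smul_eq_mul,
      re_gcomp_eq hinv, mul_inv_rev, inv_inv, mul_smul]

lemma gcomp_periodic (hH : GNice Γ H) (q : SL(2, ℤ) ⧸ Γ) :
    Periodic ((gcomp H q) ∘ ofComplex) (perN Γ : ℝ) := by
  apply periodic_comp_ofComplex_of_vadd
  intro τ
  rw [gcomp, gcomp, hH.per]

lemma gcomp_mdiff (hH : GNice Γ H) (q : SL(2, ℤ) ⧸ Γ) : MDiff (gcomp H q) :=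
  mdiff_exp (mdiff_comp_smul hH.mdiff _)

lemma gcomp_bdd (hH : GNice Γ H) (q : SL(2, ℤ) ⧸ Γ) : IsBoundedAtImInfty (gcomp H q) := by
  have h := hH.bdd q.out⁻¹
  rw [isBoundedAtImInfty_iff] at h ⊢
  obtain ⟨M, A, hMA⟩ := h
  refine ⟨Real.exp M, A, fun z hz ↦ ?_⟩
  rw [norm_gcomp]
  exact Real.exp_le_exp.mpr ((Complex.re_le_norm _).trans (hMA z hz))

variable (Γ) in
/-- the vector valued cusp function -/
def gvec (H : ℍ → ℂ) (ζ : ℂ) : EuclideanSpace ℂ (SL(2, ℤ) ⧸ Γ) :=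
  WithLp.toLp 2 fun q ↦ cuspFunction (perN Γ) (gcomp H q) ζ

lemma gvec_apply (q : SL(2, ℤ) ⧸ Γ) (ζ : ℂ) :
    gvec Γ H ζ q = cuspFunction (perN Γ) (gcomp H q) ζ := rfl

lemma gvec_differentiableOn (hH : GNice Γ H) :
    DifferentiableOn ℂ (gvec Γ H) (Metric.ball 0 1) := by
  rw [differentiableOn_euclidean]
  intro q
  exact differentiableOn_cuspFunction_ball (perN_pos Γ) (gcomp_periodic hH q) (gcomp_mdiff hH q)
    (gcomp_bdd hH q)

lemma gvec_qParam (hH : GNice Γ H) (τ : ℍ) (q : SL(2, ℤ) ⧸ Γ) :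
    gvec Γ H (𝕢 (perN Γ) τ) q = gcomp H q τ := by
  rw [gvec_apply]
  exact UpperHalfPlane.eq_cuspFunction τ (perN_pos Γ).ne' (gcomp_periodic hH q)

lemma norm_gvec_qParam (hH : GNice Γ H) (τ : ℍ) :
    ‖gvec Γ H (𝕢 (perN Γ) τ)‖ ^ 2 = ∑ q : SL(2, ℤ) ⧸ Γ, ‖gcomp H q τ‖ ^ 2 := by
  rw [EuclideanSpace.norm_sq_eq]
  exact Finset.sum_congr rfl fun q _ ↦ by rw [gvec_qParam hH]

lemma norm_gvec_smul (hH : GNice Γ H) (hinv : ∀ γ ∈ Γ, ∀ z : ℍ, (H (γ • z)).re = (H z).re)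
    (a : SL(2, ℤ)) (τ : ℍ) :
    ‖gvec Γ H (𝕢 (perN Γ) (a • τ : ℍ))‖ = ‖gvec Γ H (𝕢 (perN Γ) τ)‖ := by
  rw [← sq_eq_sq₀ (norm_nonneg _) (norm_nonneg _), norm_gvec_qParam hH, norm_gvec_qParam hH,
    sum_norm_smul hinv]

theorem gvec_const (hH : GNice Γ H) (hinv : ∀ γ ∈ Γ, ∀ z : ℍ, (H (γ • z)).re = (H z).re) :
    Set.EqOn (gvec Γ H) (Function.const ℂ (gvec Γ H 0)) (Metric.ball 0 1) := by
  have hN := perN_pos Γ
  refine Complex.eq_const_of_exists_le (r := Real.exp (-π / perN Γ)) (gvec_differentiableOn hH)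
    (Real.exp_nonneg _) ?_ fun ζ hζ ↦ ?_
  · rw [Real.exp_lt_one_iff]
    exact div_neg_of_neg_of_pos (by linarith [Real.pi_pos]) hN
  · rcases eq_or_ne ζ 0 with rfl | hζ0
    · exact ⟨0, by simpa using Real.exp_nonneg _, le_rfl⟩
    · have him := Periodic.im_invQParam_pos_of_norm_lt_one hN (mem_ball_zero_iff.mp hζ) hζ0
      set τ : ℍ := ⟨_, him⟩ with hτ
      have hζτ : 𝕢 (perN Γ) τ = ζ := Periodic.qParam_right_inv hN.ne' hζ0
      obtain ⟨γ, hγ⟩ := ModularGroup.exists_one_half_le_im_smul τ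
      refine ⟨𝕢 (perN Γ) (γ • τ : ℍ), ?_, ?_⟩
      · rw [mem_closedBall_zero_iff, Periodic.norm_qParam]
        apply Real.exp_le_exp.mpr
        apply div_le_div_of_nonneg_right _ hN.le
        have h1 : (1 / 2 : ℝ) ≤ ((γ • τ : ℍ) : ℂ).im := hγ
        nlinarith [Real.pi_pos]
      · rw [norm_gvec_smul hH hinv, hζτ]

/-- The main consequence of the maximum principle. -/
theorem GNice.eq_const (hH : GNice Γ H)
    (hinv : ∀ γ ∈ Γ, ∀ z : ℍ, (H (γ • z)).re = (H z).re) :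
    ∀ z w : ℍ, H z = H w := by
  have hN := perN_pos Γ
  have h1 : ∀ (q : SL(2, ℤ) ⧸ Γ) (z w : ℍ), gcomp H q z = gcomp H q w := by
    intro q z w
    have h2 : ∀ z : ℍ, 𝕢 (perN Γ) z ∈ Metric.ball (0 : ℂ) 1 := fun z ↦ by
      simpa using Periodic.norm_qParam_lt_one hN z.im_pos
    rw [← gvec_qParam hH, ← gvec_qParam hH, gvec_const hH hinv (h2 z), gvec_const hH hinv (h2 w)]
    rfl
  -- the exponential of `H` is constant
  have h3 : ∀ z w : ℍ, Complex.exp (H z) = Complex.exp (H w) := by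
    intro z w
    have := h1 ((1 : SL(2, ℤ)) : SL(2, ℤ) ⧸ Γ) (((1 : SL(2, ℤ)) : SL(2, ℤ) ⧸ Γ).out • z)
      (((1 : SL(2, ℤ)) : SL(2, ℤ) ⧸ Γ).out • w)
    simpa only [gcomp, inv_smul_smul] using this
  -- hence `H` has zero derivative
  have hd : ∀ z : ℂ, 0 < z.im → HasDerivAt (H ∘ ofComplex) 0 z := by
    intro z hz
    have hdiff : DifferentiableAt ℂ (H ∘ ofComplex) z :=
      UpperHalfPlane.mdifferentiableAt_iff.mp (hH.mdiff ⟨z, hz⟩)
    have h4 := hdiff.hasDerivAt.cexp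
    have h5 : HasDerivAt (fun x ↦ Complex.exp ((H ∘ ofComplex) x)) 0 z := by
      have : (fun x ↦ Complex.exp ((H ∘ ofComplex) x)) =
          fun _ ↦ Complex.exp (H UpperHalfPlane.I) := by
        ext x; exact h3 _ _
      rw [this]; exact hasDerivAt_const _ _
    have h6 := h4.unique h5
    have h7 : deriv (H ∘ ofComplex) z = 0 := by
      rcases mul_eq_zero.mp h6 with h | h
      · exact absurd h (Complex.exp_ne_zero _)
      · exact h
    rw [← h7]; exact hdiff.hasDerivAt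
  have hp : IsPrim 0 H := fun τ ↦ hd τ τ.im_pos
  have hp0 : IsPrim 0 (0 : ℍ → ℂ) := fun τ ↦ by
    have : ((0 : ℍ → ℂ) ∘ ofComplex) = fun _ ↦ (0 : ℂ) := by ext; simp
    rw [this]; exact hasDerivAt_const _ _
  intro z w
  simpa using hp.sub_eq_sub hp0 z w

lemma GNice.add {H H' : ℍ → ℂ} (hH : GNice Γ H) (hH' : GNice Γ H') : GNice Γ (H + H') where
  mdiff := hH.mdiff.add hH'.mdiff
  per δ w := by simp only [Pi.add_apply, hH.per, hH'.per]
  bdd δ := (hH.bdd δ).add (hH'.bdd δ)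

lemma GNice.smul {H : ℍ → ℂ} (c : ℂ) (hH : GNice Γ H) : GNice Γ (c • H) where
  mdiff := hH.mdiff.const_smul c
  per δ w := by simp only [Pi.smul_apply, hH.per]
  bdd δ := (hH.bdd δ).const_smul_left c

end max

lemma GPrim.nice {f : CuspForm (Γ : Subgroup (GL (Fin 2) ℝ)) 2} {F : ℍ → ℂ} (hF : GPrim f F) :
    GNice Γ F where
  mdiff := hF.mdiff
  per δ w := by
    have h1 := hF.per_apply ⟨_, conj_T_pow_mem Γ δ⟩ (δ • w)
    have h2 : per f (Additive.ofMul ⟨_, conj_T_pow_mem Γ δ⟩) = 0 := by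
      refine per_mem_parabolicHoms f ⟨_, conj_T_pow_mem Γ δ⟩ ?_
      have h3 : ((δ * ModularGroup.T ^ perN Γ * δ⁻¹ : SL(2, ℤ)) :
          Matrix (Fin 2) (Fin 2) ℤ).trace = 2 := by
        rw [Matrix.SpecialLinearGroup.coe_mul, Matrix.trace_mul_comm,
          ← Matrix.SpecialLinearGroup.coe_mul, ← mul_assoc, inv_mul_cancel, one_mul]
        have h4 := ModularGroup.coe_T_zpow (perN Γ : ℤ)
        rw [zpow_natCast] at h4
        rw [h4, Matrix.trace_fin_two]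
        simp
      rw [h3]; norm_num
    have h5 : (δ * ModularGroup.T ^ perN Γ * δ⁻¹ : SL(2, ℤ)) • (δ • w) =
        δ • ((perN Γ : ℝ) +ᵥ w) := by
      have h6 := UpperHalfPlane.modular_T_zpow_smul w (perN Γ : ℤ)
      rw [zpow_natCast, Int.cast_natCast] at h6
      rw [← h6, ← mul_smul, ← mul_smul]
      congr 1
      group
    rw [h2] at h1
    change 0 = F ((δ * ModularGroup.T ^ perN Γ * δ⁻¹ : SL(2, ℤ)) • (δ • w)) - F (δ • w) at h1
    rw [h5] at h1
    linear_combination -h1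
  bdd δ := by
    obtain ⟨L, hL⟩ := hF.cusp δ
    exact hL.isBigO_one ℝ

lemma eq_zero_of_const {f : CuspForm (Γ : Subgroup (GL (Fin 2) ℝ)) 2} {F : ℍ → ℂ}
    (hF : GPrim f F) (hc : ∀ z w : ℍ, F z = F w) : f = 0 := by
  ext τ
  have h1 := hF.prim τ
  have h2 : HasDerivAt (F ∘ ofComplex) 0 (τ : ℂ) := by
    have : (F ∘ ofComplex) = fun _ ↦ F UpperHalfPlane.I := by
      ext x; exact hc _ _
    rw [this]; exact hasDerivAt_const _ _
  simpa using h1.unique h2

/-- A cusp form whose periods are purely imaginary vanishes. -/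
theorem eq_zero_of_re_per {f : CuspForm (Γ : Subgroup (GL (Fin 2) ℝ)) 2}
    (h : ∀ γ : Γ, (per f (Additive.ofMul γ)).re = 0) : f = 0 := by
  obtain ⟨F, hF⟩ := exists_gprim f
  refine eq_zero_of_const hF (hF.nice.eq_const fun γ hγ z => ?_)
  have h1 := hF.per_apply ⟨γ, hγ⟩ z
  have h2 := h ⟨γ, hγ⟩
  rw [h1, Complex.sub_re, sub_eq_zero] at h2
  exact h2

/-- Injectivity of the period map on forms and anti-holomorphic forms. -/
theorem per_add_conj_per_injective {f g : CuspForm (Γ : Subgroup (GL (Fin 2) ℝ)) 2}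
    (h : ∀ γ : Γ, per f (Additive.ofMul γ) + conj (per g (Additive.ofMul γ)) = 0) :
    f = 0 ∧ g = 0 := by
  have hadd : f + g = 0 := by
    refine eq_zero_of_re_per fun γ => ?_
    have h1 : per (f + g) (Additive.ofMul γ) = per f (Additive.ofMul γ) +
        per g (Additive.ofMul γ) := by
      have := DFunLike.congr_fun ((perLin Γ).map_add f g) (Additive.ofMul γ)
      exact this
    rw [h1]
    have := congrArg Complex.re (h γ)
    simpa using this
  have hsub : Complex.I • (f - g) = 0 := by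
    refine eq_zero_of_re_per fun γ => ?_
    have h1 : per (Complex.I • (f - g)) (Additive.ofMul γ) =
        Complex.I * (per f (Additive.ofMul γ) - per g (Additive.ofMul γ)) := by
      have := DFunLike.congr_fun ((perLin Γ).map_smul Complex.I (f - g)) (Additive.ofMul γ)
      rw [map_sub] at this
      exact this
    rw [h1]
    have := congrArg Complex.im (h γ)
    simp only [Complex.add_im, Complex.conj_im, Complex.zero_im] at this
    simp only [Complex.mul_re, Complex.I_re, Complex.I_im, Complex.sub_re, Complex.sub_im]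
    linarith
  have hsub' : f - g = 0 := (smul_eq_zero.mp hsub).resolve_left Complex.I_ne_zero
  have hfg : f = g := sub_eq_zero.mp hsub'
  subst hfg
  have h2 : (2 : ℂ) • f = 0 := by rw [two_smul]; exact hadd
  have h3 := (smul_eq_zero.mp h2).resolve_left two_ne_zero
  exact ⟨h3, h3⟩

end Fermat.Agent.GenES
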