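import Fermat.Agent.Genus.Rank
import Fermat.Agent.Genus.Structure
import Fermat.Agent.DS.EisGamma1

/-!
# Full rank for all groups containing `Γ₁(M)`
-/

set_option autoImplicit false

open UpperHalfPlane ModularForm MatrixGroups Complex Filter CongruenceSubgroup
open scoped Manifold Topology

noncomputable section

namespace Fermat.Agent.GenES

open Fermat.Agent.Genus

/-- Vandermonde for a form of arbitrary weight `w` for which a nonzero level one form exists. -/
theorem fullRank_of_injective {X : Type} [MulAction SL(2, ℤ) X] [Fintype X]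
    [DecidableEq X] {w : ℤ} {m : ℍ → ℂ} (hm : m ∈ LF w) (hm0 : m ≠ 0)
    (H : X → ℍ → ℂ) (hH : H ∈ MF X w) (hinj : Function.Injective H) : FullRank X := by
  classical
  let n := Fintype.card X
  let e : X ≃ Fin n := Fintype.equivFin X
  let P : Option (X × X) → ℍ → ℂ := fun o => o.elim m fun p => H p.1 - H p.2
  let s : Finset (Option (X × X)) :=
    Finset.univ.filter fun o => o.elim True fun p => p.1 ≠ p.2
  have hP : ∀ o ∈ s, MDiff (P o) := by
    intro o _
    cases o with
    | none => exact hm.1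
    | some p => exact (hH.1 p.1).sub (hH.1 p.2)
  have hne : ∏ o ∈ s, P o ≠ 0 := by
    rw [Ne, UpperHalfPlane.prod_eq_zero_iff hP]
    rintro ⟨o, ho, h0⟩
    cases o with
    | none => exact hm0 h0
    | some p =>
      have hp : p.1 ≠ p.2 := by simpa [s] using ho
      exact hp (hinj (sub_eq_zero.mp h0))
  obtain ⟨z0, hz0⟩ := Function.ne_iff.mp hne
  rw [Finset.prod_apply, Pi.zero_apply, Finset.prod_ne_zero_iff] at hz0
  have h4 : m z0 ≠ 0 := hz0 none (by simp [s])
  have hd : ∀ x y : X, x ≠ y → H x z0 ≠ H y z0 := by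
    intro x y hxy h
    refine hz0 (some (x, y)) (by simpa [s] using hxy) ?_
    simp [P, h]
  let g : X → (X → ℍ → ℂ) := fun j => (m ^ ((e j).rev : ℕ)) • (H ^ ((e j : Fin n) : ℕ))
  refine ⟨z0, ((n : ℤ) - 1) * w, g, fun j => ?_, ?_⟩
  · have h1 := MF_smul _ _ _ (LF_pow w m hm ((e j).rev : ℕ)) _ (MF_pow w H hH (e j : ℕ))
    have h2 : (((e j).rev : ℕ) : ℤ) + ((e j : ℕ) : ℤ) = (n : ℤ) - 1 := by
      have := (e j).isLt
      rw [Fin.val_rev]
      omega
    rwa [← add_mul, h2] at h1
  · let v : Fin n → ℂ := fun i => H (e.symm i) z0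
    let u : Fin n → ℂ := fun _ => m z0
    have h1 : fmat g z0 = (Matrix.projVandermonde v u).submatrix e e := by
      ext x j
      simp only [fmat, Matrix.of_apply, Matrix.submatrix_apply, Matrix.projVandermonde_apply, g,
        Pi.smul_apply, smul_eq_mul, Pi.mul_apply, Pi.pow_apply, v, u, Equiv.symm_apply_apply]
      ring
    rw [h1, Matrix.det_submatrix_equiv_self, Matrix.det_projVandermonde]
    refine Finset.prod_ne_zero_iff.mpr fun i _ => Finset.prod_ne_zero_iff.mpr fun j hj => ?_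
    have hij : e.symm j ≠ e.symm i := fun h =>
      (Finset.mem_Ioi.mp hj).ne' (e.symm.injective h)
    rw [← sub_mul]
    exact mul_ne_zero (sub_ne_zero.mpr (hd _ _ hij)) h4

/-- `FullRank` in terms of spanning. -/
theorem fullRank_of_span {X : Type} [MulAction SL(2, ℤ) X] [Fintype X] [DecidableEq X]
    {ι : Type} {z0 : ℍ} {k : ℤ} {g : ι → (X → ℍ → ℂ)} (hg : ∀ j, g j ∈ MF X k)
    (hspan : Submodule.span ℂ (Set.range fun j => fun x => g j x z0) = ⊤) : FullRank X := by
  classical
  let v : ι → (X → ℂ) := fun j => fun x => g j x z0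
  obtain ⟨b, hb1, hb2, hb3⟩ := exists_linearIndependent ℂ (Set.range v)
  have hb2' : Submodule.span ℂ b = ⊤ := by rw [hb2]; exact hspan
  let B : Module.Basis b ℂ (X → ℂ) := Module.Basis.mk hb3 (by
    rw [Subtype.range_coe_subtype, Set.ofPred_mem_eq, hb2'])
  have : Fintype b := FiniteDimensional.fintypeBasisIndex B
  have hcard : Fintype.card X = Fintype.card b := by
    rw [← Module.finrank_eq_card_basis B, Module.finrank_fintype_fun_eq_card]
  let e : X ≃ b := Fintype.equivOfCardEq hcard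
  have hs : ∀ x : X, ∃ j : ι, v j = (e x : X → ℂ) := fun x => hb1 (e x).2
  choose s hs using hs
  refine ⟨z0, k, fun x => g (s x), fun x => hg _, ?_⟩
  have h4 : LinearIndependent ℂ (fun i : X => (e i : X → ℂ)) := hb3.comp e e.injective
  have h5 : LinearIndependent ℂ (fmat (fun x => g (s x)) z0).col := by
    have : (fmat (fun x => g (s x)) z0).col = fun i : X => (e i : X → ℂ) := by
      funext i
      rw [← hs i]
      rfl
    rw [this]
    exact h4
  have h6 := Matrix.linearIndependent_cols_iff_isUnit.mp h5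
  exact isUnit_iff_ne_zero.mp ((Matrix.isUnit_iff_isUnit_det _).mp h6)

/-- `FullRank` passes to quotients. -/
theorem FullRank.of_surjective {X Y : Type} [MulAction SL(2, ℤ) X] [MulAction SL(2, ℤ) Y]
    [Fintype X] [DecidableEq X] [Fintype Y] [DecidableEq Y] (hY : FullRank Y)
    (π : Y → X) (hπ : Function.Surjective π) (hequiv : ∀ (g : SL(2, ℤ)) y, π (g • y) = g • π y) :
    FullRank X := by
  classical
  obtain ⟨z0, k, g, hg, hdet⟩ := hY
  -- push forward
  let push : (Y → ℍ → ℂ) → (X → ℍ → ℂ) := fun F x => ∑ y with π y = x, F y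
  have hpush : ∀ F ∈ MF Y k, push F ∈ MF X k := by
    intro F hF
    refine ⟨fun x => ?_, fun x γ => ?_, fun x => ?_⟩
    · have : ∀ s : Finset Y, MDiff (∑ y ∈ s, F y) := by
        intro s
        induction s using Finset.induction_on with
        | empty => exact mdifferentiable_const
        | insert a s ha ih =>
          rw [Finset.sum_insert ha]
          exact (hF.1 a).add ih
      exact this _
    · have h1 : ∀ s : Finset Y, (∑ y ∈ s, F y) ∣[k] γ = ∑ y ∈ s, F (γ⁻¹ • y) := by
        intro s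
        induction s using Finset.induction_on with
        | empty => exact SlashAction.zero_slash k γ
        | insert a s ha ih =>
          rw [Finset.sum_insert ha, Finset.sum_insert ha, SlashAction.add_slash, ih, hF.2.1]
      change (∑ y with π y = x, F y) ∣[k] γ = ∑ y with π y = γ⁻¹ • x, F y
      rw [h1]
      refine Finset.sum_nbij' (fun y => γ⁻¹ • y) (fun y => γ • y) ?_ ?_ ?_ ?_ ?_
      · intro y hy
        simp only [Finset.mem_filter, Finset.mem_univ, true_and] at hy ⊢
        rw [hequiv, hy]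
      · intro y hy
        simp only [Finset.mem_filter, Finset.mem_univ, true_and] at hy ⊢
        rw [hequiv, hy, smul_inv_smul]
      · intro y _; exact smul_inv_smul _ _
      · intro y _; exact inv_smul_smul _ _
      · intro y _; rfl
    · have : ∀ s : Finset Y, IsBoundedAtImInfty (∑ y ∈ s, F y) := by
        intro s
        induction s using Finset.induction_on with
        | empty => simpa using zero_form_isBoundedAtImInfty
        | insert a s ha ih =>
          rw [Finset.sum_insert ha]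
          exact (hF.2.2 a).add ih
      exact this _
  -- the push forward on vectors
  let P : (Y → ℂ) →ₗ[ℂ] (X → ℂ) :=
    { toFun := fun v x => ∑ y with π y = x, v y
      map_add' := fun v w => by
        funext x
        simp only [Pi.add_apply]
        exact Finset.sum_add_distrib
      map_smul' := fun c v => by
        funext x
        simp only [Pi.smul_apply, smul_eq_mul, RingHom.id_apply]
        exact (Finset.mul_sum _ _ _).symm }
  have hP : Function.Surjective P := by
    intro v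
    choose s hs using hπ
    refine ⟨fun y => if y = s (π y) then v (π y) else 0, ?_⟩
    funext x
    change (∑ y with π y = x, if y = s (π y) then v (π y) else 0) = v x
    rw [Finset.sum_eq_single (s x)]
    · rw [hs, if_pos rfl]
    · intro y hy hne
      simp only [Finset.mem_filter, Finset.mem_univ, true_and] at hy
      rw [if_neg]
      rw [hy]
      exact hne
    · intro h
      exact absurd (by simp [hs]) h
  have hginv : IsUnit (fmat g z0) := (Matrix.isUnit_iff_isUnit_det _).mpr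
    (isUnit_iff_ne_zero.mpr hdet)
  have hgspan : Submodule.span ℂ (Set.range (fmat g z0).col) = ⊤ := by
    have := Matrix.linearIndependent_cols_iff_isUnit.mpr hginv
    exact this.span_eq_top_of_card_eq_finrank' (by
      rw [Module.finrank_fintype_fun_eq_card])
  refine fullRank_of_span (ι := Y) (z0 := z0) (k := k) (g := fun y => push (g y))
    (fun y => hpush _ (hg y)) ?_
  have h1 : (Set.range fun j : Y => fun x => push (g j) x z0) = P '' (Set.range (fmat g z0).col) := by
    rw [← Set.range_comp]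
    congr 1
    funext j x
    change (∑ y with π y = x, g j y) z0 = ∑ y with π y = x, g j y z0
    rw [Finset.sum_apply]
  rw [h1, ← Submodule.map_span, hgspan, Submodule.map_top, LinearMap.range_eq_top.mpr hP]

/-! ### The group `± Γ₁(N)` -/

/-- `± Γ₁(N)` -/
def pmGamma1 (N : ℕ) : Subgroup SL(2, ℤ) where
  carrier := {γ | γ ∈ Gamma1 N ∨ -γ ∈ Gamma1 N}
  one_mem' := Or.inl (one_mem _)
  mul_mem' := by
    rintro a b (ha | ha) (hb | hb)
    · exact Or.inl (mul_mem ha hb)
    · right
      have := mul_mem ha hb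
      rwa [mul_neg] at this
    · right
      have := mul_mem ha hb
      rwa [neg_mul] at this
    · left
      have := mul_mem ha hb
      rwa [neg_mul_neg] at this
  inv_mem' := by
    rintro a (ha | ha)
    · exact Or.inl (inv_mem ha)
    · right
      have h := inv_mem ha
      have h2 : (-a)⁻¹ = -a⁻¹ := by
        rw [inv_eq_iff_mul_eq_one, neg_mul_neg, mul_inv_cancel]
      rwa [h2] at h

theorem Gamma1_le_pm (N : ℕ) : Gamma1 N ≤ pmGamma1 N := fun _ h => Or.inl h

theorem pmGamma1_le {N : ℕ} {Γ : Subgroup SL(2, ℤ)} (h : Gamma1 N ≤ Γ) (hneg : -1 ∈ Γ) :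
    pmGamma1 N ≤ Γ := by
  rintro γ (hγ | hγ)
  · exact h hγ
  · have := mul_mem hneg (h hγ)
    simpa using this

instance (N : ℕ) [NeZero N] : (pmGamma1 N).FiniteIndex :=
  Subgroup.finiteIndex_of_le (Gamma1_le_pm N)

theorem finiteIndex_of_Gamma1_le {N : ℕ} [NeZero N] {Γ : Subgroup SL(2, ℤ)} (h : Gamma1 N ≤ Γ) :
    Γ.FiniteIndex := Subgroup.finiteIndex_of_le h

theorem toVec_mem_MF' {Γ : Subgroup SL(2, ℤ)} {k : ℤ} {f : ℍ → ℂ} (hf : ∀ g ∈ Γ, f ∣[k] g = f)
    (h1 : ∀ g : SL(2, ℤ), MDiff (f ∣[k] g)) (h2 : ∀ g : SL(2, ℤ), IsBoundedAtImInfty (f ∣[k] g)) :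
    toVec Γ f hf ∈ MF (SL(2, ℤ) ⧸ Γ) k := by
  refine ⟨fun x => ?_, toVec_slash Γ _ _, fun x => ?_⟩
  · induction x using QuotientGroup.induction_on with
    | H h => exact h1 h⁻¹
  · induction x using QuotientGroup.induction_on with
    | H h => exact h2 h⁻¹

theorem fullRank_pmGamma1 (N : ℕ) [NeZero N] (hN : 3 ≤ N) [Fintype (SL(2, ℤ) ⧸ pmGamma1 N)]
    [DecidableEq (SL(2, ℤ) ⧸ pmGamma1 N)] : FullRank (SL(2, ℤ) ⧸ pmGamma1 N) := by
  let f := DSEis.gform N 3 (le_refl 3)
  have hfs : ∀ γ ∈ Gamma1 N, (f : ℍ → ℂ) ∣[(3 : ℤ)] γ = f := slash_eq_of_form _ f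
  have hneg : ∀ γ : SL(2, ℤ), (f : ℍ → ℂ) ∣[(3 : ℤ)] (-γ) = -((f : ℍ → ℂ) ∣[(3 : ℤ)] γ) := by
    intro γ
    ext z
    rw [SL_slash_apply, Pi.neg_apply, SL_slash_apply, ModularGroup.SL_neg_smul]
    have h4 : denom ((-γ : SL(2, ℤ)) : GL (Fin 2) ℝ) z = - denom (γ : GL (Fin 2) ℝ) z := by
      simp [denom]
      ring
    rw [h4, Odd.neg_zpow (by decide)]
    ring
  have hsq : ∀ γ : SL(2, ℤ), ((f : ℍ → ℂ) * f) ∣[(6 : ℤ)] γ =
      ((f : ℍ → ℂ) ∣[(3 : ℤ)] γ) * ((f : ℍ → ℂ) ∣[(3 : ℤ)] γ) := fun γ =>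
    ModularForm.mul_slash_SL2 3 3 γ f f
  have hmd : ∀ γ : SL(2, ℤ), MDiff ((f : ℍ → ℂ) ∣[(3 : ℤ)] γ) := by
    intro γ
    rw [ModularForm.SL_slash]
    exact (ModularForm.translate f _).holo'
  have hinv : ∀ γ ∈ pmGamma1 N, ((f : ℍ → ℂ) * f) ∣[(6 : ℤ)] γ = (f : ℍ → ℂ) * f := by
    rintro γ (hγ | hγ)
    · rw [hsq, hfs γ hγ]
    · have h1 := hfs _ hγ
      rw [hneg] at h1
      rw [hsq, ← neg_mul_neg, h1]
  refine fullRank_of_injective (w := 6) e6_mem ?_ (toVec (pmGamma1 N) ((f : ℍ → ℂ) * f) hinv)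
    (toVec_mem_MF' hinv (fun γ => ?_) (fun γ => ?_)) (toVec_injective _ _ hinv fun γ hγ => ?_)
  · intro h
    have h1 := e6_tendsto
    rw [h] at h1
    have h2 : Tendsto (0 : ℍ → ℂ) atImInfty (𝓝 0) := tendsto_const_nhds
    exact one_ne_zero (tendsto_nhds_unique h1 h2)
  · rw [hsq]
    exact (hmd γ).mul (hmd γ)
  · rw [hsq]
    have := ModularFormClass.bdd_at_infty_slash f γ
    exact this.mul this
  · rw [hsq] at hγ
    have h1 : (((f : ℍ → ℂ) ∣[(3 : ℤ)] γ) - f) * (((f : ℍ → ℂ) ∣[(3 : ℤ)] γ) + f) = 0 := by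
      linear_combination hγ
    have hmf : MDiff (f : ℍ → ℂ) := f.holo'
    rcases (UpperHalfPlane.mul_eq_zero_iff ((hmd γ).sub hmf) ((hmd γ).add hmf)).mp h1 with h | h
    · left
      exact DSEis.gform_mem_Gamma1 hN (le_refl 3) (by decide) γ (sub_eq_zero.mp h)
    · right
      refine DSEis.gform_mem_Gamma1 hN (le_refl 3) (by decide) (-γ) ?_
      have h3 : (f : ℍ → ℂ) ∣[((3 : ℕ) : ℤ)] (-γ) = -((f : ℍ → ℂ) ∣[(3 : ℤ)] γ) := hneg γ
      rw [h3, eq_neg_of_add_eq_zero_left h, neg_neg]

/-- **Full rank** for every group containing `Γ₁(M)` and `-1`. -/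
theorem fullRank_of_Gamma1_le {M : ℕ} [NeZero M] {Γ : Subgroup SL(2, ℤ)} (h : Gamma1 M ≤ Γ)
    (hneg : -1 ∈ Γ) [Fintype (SL(2, ℤ) ⧸ Γ)] [DecidableEq (SL(2, ℤ) ⧸ Γ)] :
    FullRank (SL(2, ℤ) ⧸ Γ) := by
  classical
  have hM : NeZero (3 * M) := ⟨by have := NeZero.ne M; omega⟩
  have h3 : 3 ≤ 3 * M := by have := Nat.pos_of_ne_zero (NeZero.ne M); omega
  have hle : Gamma1 (3 * M) ≤ Gamma1 M := by
    intro γ hγ
    rw [Gamma1_mem] at hγ ⊢
    have key : ∀ a b : ℤ, ((a : ℤ) : ZMod (3 * M)) = (b : ℤ) → ((a : ℤ) : ZMod M) = (b : ℤ) := by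
      intro a b hab
      rw [ZMod.intCast_eq_intCast_iff_dvd_sub] at hab ⊢
      refine Dvd.dvd.trans ?_ hab
      push_cast
      exact Dvd.intro_left 3 rfl
    refine ⟨?_, ?_, ?_⟩
    · have := key _ 1 (by simpa using hγ.1)
      simpa using this
    · have := key _ 1 (by simpa using hγ.2.1)
      simpa using this
    · have := key _ 0 (by simpa using hγ.2.2)
      simpa using this
  have hle2 : pmGamma1 (3 * M) ≤ Γ := pmGamma1_le (hle.trans h) hneg
  have hfin : Finite (SL(2, ℤ) ⧸ pmGamma1 (3 * M)) := Subgroup.finite_quotient_of_finiteIndex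
  have : Fintype (SL(2, ℤ) ⧸ pmGamma1 (3 * M)) := Fintype.ofFinite _
  refine FullRank.of_surjective (fullRank_pmGamma1 (3 * M) h3)
    (Subgroup.quotientMapOfLE hle2) ?_ ?_
  · intro x
    induction x using QuotientGroup.induction_on with
    | H g => exact ⟨(g : SL(2, ℤ) ⧸ pmGamma1 (3 * M)), rfl⟩
  · intro g x
    induction x using QuotientGroup.induction_on with
    | H y => rfl

end Fermat.Agent.GenES
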