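import Fermat.Agent.GenES.Period
import Fermat.Agent.GenES.FullRank
import Fermat.Agent.Genus.Final
import Fermat.Agent.S21.ParBoundGamma0

/-!
# The Eichler–Shimura isomorphism in weight two for all groups between `Γ₁(M)` and `SL(2, ℤ)`
-/

set_option autoImplicit false

open UpperHalfPlane Filter Topology Complex Function CongruenceSubgroup Module
open scoped MatrixGroups Manifold ModularForm Real ComplexConjugate

noncomputable section

namespace Fermat.Agent.GenES

open Fermat.Agent.Genus ModularCurve.Period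

variable {Γ : Subgroup SL(2, ℤ)}

/-- complex conjugation of homomorphisms -/
def conjHom (φ : Additive Γ →+ ℂ) : Additive Γ →+ ℂ :=
  (starRingEnd ℂ : ℂ →+* ℂ).toAddMonoidHom.comp φ

@[simp] lemma conjHom_apply (φ : Additive Γ →+ ℂ) (γ : Additive Γ) :
    conjHom φ γ = conj (φ γ) := rfl

lemma conjHom_mem {φ : Additive Γ →+ ℂ} (hφ : φ ∈ parabolicHoms ℂ Γ ℂ) :
    conjHom φ ∈ parabolicHoms ℂ Γ ℂ := by
  rw [mem_parabolicHoms_iff] at hφ ⊢
  intro γ hγ
  rw [conjHom_apply, hφ γ hγ, map_zero]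

variable [Γ.FiniteIndex]

lemma perLin_apply (f : CuspForm (Γ : Subgroup (GL (Fin 2) ℝ)) 2) : perLin Γ f = per f := rfl

lemma perLin_injective : Injective (perLin Γ) := by
  rw [injective_iff_map_eq_zero]
  intro f hf
  refine eq_zero_of_re_per fun γ => ?_
  rw [← perLin_apply, hf]
  rfl

instance finiteDimensional_cuspForm :
    FiniteDimensional ℂ (CuspForm (Γ : Subgroup (GL (Fin 2) ℝ)) 2) := by
  have h : ∀ f, perLin Γ f ∈ parabolicHoms ℂ Γ ℂ := per_mem_parabolicHoms
  have hinj : Injective ((perLin Γ).codRestrict (parabolicHoms ℂ Γ ℂ) h) := fun f g hfg =>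
    perLin_injective (congrArg Subtype.val hfg)
  exact Module.Finite.of_injective _ hinj

/-- **Eichler–Shimura**, given the dimension estimate. -/
theorem exists_eq_per_add_conj_of_le
    (hle : finrank ℂ (parabolicHoms ℂ Γ ℂ) ≤
      2 * finrank ℂ (CuspForm (Γ : Subgroup (GL (Fin 2) ℝ)) 2))
    {φ : Additive Γ →+ ℂ} (hφ : φ ∈ parabolicHoms ℂ Γ ℂ) :
    ∃ f g : CuspForm (Γ : Subgroup (GL (Fin 2) ℝ)) 2, φ = per f + conjHom (per g) := by
  classical
  set n := finrank ℂ (CuspForm (Γ : Subgroup (GL (Fin 2) ℝ)) 2) with hn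
  let b : Basis (Fin n) ℂ (CuspForm (Γ : Subgroup (GL (Fin 2) ℝ)) 2) := Module.finBasis _ _
  let v : Fin n ⊕ Fin n → parabolicHoms ℂ Γ ℂ := Sum.elim
    (fun i => ⟨per (b i), per_mem_parabolicHoms _⟩)
    (fun i => ⟨conjHom (per (b i)), conjHom_mem (per_mem_parabolicHoms _)⟩)
  -- combinations of `v`
  have key : ∀ c : Fin n ⊕ Fin n → ℂ, ((∑ j, c j • v j : parabolicHoms ℂ Γ ℂ) : Additive Γ →+ ℂ) =
      per (∑ i, c (Sum.inl i) • b i) + conjHom (per (∑ i, conj (c (Sum.inr i)) • b i)) := by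
    intro c
    rw [Fintype.sum_sum_type, Submodule.coe_add, Submodule.coe_sum, Submodule.coe_sum]
    congr 1
    · rw [← perLin_apply, map_sum]
      refine Finset.sum_congr rfl fun i _ => ?_
      rw [map_smul]
      rfl
    · refine AddMonoidHom.ext fun γ => ?_
      rw [conjHom_apply, ← perLin_apply, map_sum, AddMonoidHom.finsetSum_apply,
        AddMonoidHom.finsetSum_apply, map_sum]
      refine Finset.sum_congr rfl fun i _ => ?_
      rw [map_smul, AddMonoidHom.smul_apply, smul_eq_mul, map_mul, Complex.conj_conj]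
      rfl
  have hli : LinearIndependent ℂ v := by
    rw [Fintype.linearIndependent_iff]
    intro c hc
    have h1 := key c
    rw [hc] at h1
    have h2 := per_add_conj_per_injective (f := ∑ i, c (Sum.inl i) • b i)
      (g := ∑ i, conj (c (Sum.inr i)) • b i) (fun γ => by
        have := DFunLike.congr_fun h1 (Additive.ofMul γ)
        exact this.symm)
    rintro (i | i)
    · exact Fintype.linearIndependent_iff.mp b.linearIndependent _ h2.1 i
    · have := Fintype.linearIndependent_iff.mp b.linearIndependent _ h2.2 i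
      simpa using this
  have hcard : Fintype.card (Fin n ⊕ Fin n) = finrank ℂ (parabolicHoms ℂ Γ ℂ) := by
    refine le_antisymm ?_ ?_
    · exact hli.fintype_card_le_finrank
    · rw [Fintype.card_sum, Fintype.card_fin]
      omega
  have hspan := hli.span_eq_top_of_card_eq_finrank' hcard
  have hmem : (⟨φ, hφ⟩ : parabolicHoms ℂ Γ ℂ) ∈ Submodule.span ℂ (Set.range v) := by
    rw [hspan]; exact Submodule.mem_top
  obtain ⟨c, hc⟩ := (Submodule.mem_span_range_iff_exists_fun ℂ).mp hmem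
  exact ⟨_, _, by rw [← key c, hc]⟩

/-- The dimension formula. -/
theorem finrank_parabolicHoms_le {M : ℕ} [NeZero M] (h : Gamma1 M ≤ Γ) (hneg : -1 ∈ Γ) :
    finrank ℂ (parabolicHoms ℂ Γ ℂ) ≤
      2 * finrank ℂ (CuspForm (Γ : Subgroup (GL (Fin 2) ℝ)) 2) := by
  classical
  have h1 := Fermat.Agent.S21par.finrank_par_le Γ hneg
  rw [Fermat.Agent.S21par.card_fixed_TS] at h1
  have h2 := finrank_CF_two (X := SL(2, ℤ) ⧸ Γ)
    (Fermat.Agent.S21par.neg_one_smul' hneg) (fullRank_of_Gamma1_le h hneg)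
  rw [(CFequiv Γ 2).finrank_eq.symm] at h2
  rw [← Nat.card_eq_fintype_card (α := SL(2, ℤ) ⧸ Γ)] at h2
  have h2' : (finrank ℂ (CuspForm (Γ : Subgroup (GL (Fin 2) ℝ)) 2) : ℚ) =
      1 + (Nat.card (SL(2, ℤ) ⧸ Γ) : ℚ) / 12
      - (Nat.card {x : SL(2, ℤ) ⧸ Γ // ModularGroup.S • x = x} : ℚ) / 4
      - (Nat.card {x : SL(2, ℤ) ⧸ Γ // (ModularGroup.S * ModularGroup.T) • x = x} : ℚ) / 3
      - (Nat.card (MulAction.orbitRel.Quotient (Subgroup.zpowers ModularGroup.T)
        (SL(2, ℤ) ⧸ Γ)) : ℚ) / 2 := h2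
  have h3 : (finrank ℂ (parabolicHoms ℂ Γ ℂ) : ℚ) ≤
      2 * (finrank ℂ (CuspForm (Γ : Subgroup (GL (Fin 2) ℝ)) 2) : ℚ) := by
    rw [h2']
    linarith
  exact_mod_cast h3

/-- **Eichler–Shimura** for groups containing `Γ₁(M)` and `-1`: every parabolic homomorphism is
the sum of the periods of a cusp form and the conjugate periods of another one (and these are
unique by `per_add_conj_per_injective`). -/
theorem exists_eq_per_add_conj {M : ℕ} [NeZero M] (h : Gamma1 M ≤ Γ) (hneg : -1 ∈ Γ)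
    {φ : Additive Γ →+ ℂ} (hφ : φ ∈ parabolicHoms ℂ Γ ℂ) :
    ∃ f g : CuspForm (Γ : Subgroup (GL (Fin 2) ℝ)) 2, φ = per f + conjHom (per g) :=
  exists_eq_per_add_conj_of_le (finrank_parabolicHoms_le h hneg) hφ

end Fermat.Agent.GenES
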