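import Fermat.Agent.GenES.QSer
import Fermat.Agent.X1.HeckeQ
import Fermat.Agent.S21.PeriodMapLinear

/-!
# Twisting eigenforms with nebentypus to trivial nebentypus

If `f` is a weight two cusp form for `Γ₁(M)`, an eigenform away from `M`, with nebentypus `ψ⁻²`,
then there is a normalised eigenform `F` for `Γ₀(M²)` with `a_p(F) = ψ(p) λ_p` for all `p ∤ M`.
-/

set_option autoImplicit false

open UpperHalfPlane Filter Topology Complex Function CongruenceSubgroup Matrix ModularFormClass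
open scoped MatrixGroups Manifold ModularForm Real ZMod

noncomputable section

namespace Fermat.Agent.GenES

local notation "𝕢" => Function.Periodic.qParam

variable {M : ℕ} [NeZero M]

lemma sum_slash_GL {ι : Type*} (s : Finset ι) (F : ι → ℍ → ℂ) (g : GL (Fin 2) ℝ) :
    (∑ i ∈ s, F i) ∣[(2 : ℤ)] g = ∑ i ∈ s, (F i) ∣[(2 : ℤ)] g := by
  classical
  induction s using Finset.induction_on with
  | empty => exact SlashAction.zero_slash 2 g
  | insert a s ha ih =>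
    rw [Finset.sum_insert ha, Finset.sum_insert ha, SlashAction.add_slash, ih]

/-- Transformation law of the twist. -/
theorem addTwist_slash (ψ : DirichletCharacter ℂ M) {f : ℍ → ℂ}
    (hf : ∀ γ ∈ Gamma0 M, (ψ ((γ 1 1 : ℤ) : ZMod M)) ^ 2 • (f ∣[(2 : ℤ)] γ) = f)
    {γ : SL(2, ℤ)} (hγ : γ ∈ Gamma0 (M ^ 2)) :
    (addTwist (fun x => ψ x) f) ∣[(2 : ℤ)] γ = addTwist (fun x => ψ x) f := by
  classical
  -- the lower right entry is a unit
  have hγ0 : γ ∈ Gamma0 M := by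
    rw [Gamma0_mem, ZMod.intCast_zmod_eq_zero_iff_dvd] at hγ ⊢
    exact dvd_trans (Int.natCast_dvd_natCast.mpr (Dvd.intro_left (M ^ 1) (by ring))) hγ
  have had := Fermat.Agent.X1.gamma0_00_mul_11 hγ0
  obtain ⟨d, hd⟩ : ∃ d : (ZMod M)ˣ, (d : ZMod M) = ((γ 1 1 : ℤ) : ZMod M) :=
    ⟨Units.mkOfMulEqOne _ _ (by rw [mul_comm]; exact had), rfl⟩
  have hψ0 : ψ (d : ZMod M) ≠ 0 := (d.isUnit.map ψ).ne_zero
  -- slash of each term
  have key : ∀ u : ZMod M, (f ∣[(2 : ℤ)] tmat M (u.val : ℤ)) ∣[(2 : ℤ)] γ =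
      (ψ (d : ZMod M) ^ 2)⁻¹ • (f ∣[(2 : ℤ)] tmat M ((((d ^ 2 : (ZMod M)ˣ) : ZMod M) * u).val : ℤ)) := by
    intro u
    obtain ⟨γ', hγ', hd', hmul⟩ := exists_tmat_mul hγ (u.val : ℤ)
      ((((d ^ 2 : (ZMod M)ˣ) : ZMod M) * u).val : ℤ) (by
        rw [Int.cast_natCast, Int.cast_natCast, ZMod.natCast_zmod_val, ZMod.natCast_zmod_val, ← hd,
          Units.val_pow_eq_pow_val])
    have h1 : f ∣[(2 : ℤ)] γ' = (ψ (d : ZMod M) ^ 2)⁻¹ • f := by
      have h2 := hf γ' hγ'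
      rw [hd', ← hd] at h2
      rw [eq_inv_smul_iff₀ (pow_ne_zero 2 hψ0)]
      exact h2
    rw [ModularForm.SL_slash, ← SlashAction.slash_mul]
    change f ∣[(2 : ℤ)] (tmat M (u.val : ℤ) * (Matrix.SpecialLinearGroup.mapGL ℝ γ)) = _
    rw [hmul, SlashAction.slash_mul]
    have h3 : f ∣[(2 : ℤ)] (Matrix.SpecialLinearGroup.mapGL ℝ γ') =
        (ψ (d : ZMod M) ^ 2)⁻¹ • f := h1
    rw [h3, smul_slash_pos _ _ (det_tmat_pos M _)]
  have hdft : ∀ v : ZMod M, 𝓕 (fun x => ψ x) (((d ^ 2)⁻¹ : (ZMod M)ˣ) * v) =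
      ψ (d : ZMod M) ^ 2 * 𝓕 (fun x => ψ x) v := by
    intro v
    rw [← ZMod.dft_comp_unitMul]
    rw [ZMod.dft_apply, ZMod.dft_apply, Finset.mul_sum]
    refine Finset.sum_congr rfl fun j _ => ?_
    rw [map_mul, Units.val_pow_eq_pow_val, map_pow]
    simp only [smul_eq_mul]
    ring
  rw [addTwist, ModularForm.SL_slash, sum_slash_GL]
  have h4 : ∀ u : ZMod M, (((M : ℂ)⁻¹ * 𝓕 (fun x => ψ x) u) •
      (f ∣[(2 : ℤ)] tmat M (u.val : ℤ))) ∣[(2 : ℤ)] (γ : GL (Fin 2) ℝ) =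
      ((M : ℂ)⁻¹ * 𝓕 (fun x => ψ x) u * (ψ (d : ZMod M) ^ 2)⁻¹) •
        (f ∣[(2 : ℤ)] tmat M ((((d ^ 2 : (ZMod M)ˣ) : ZMod M) * u).val : ℤ)) := by
    intro u
    rw [← ModularForm.SL_slash, ModularForm.SL_smul_slash, key, smul_smul]
  simp only [h4]
  refine Fintype.sum_equiv ((d ^ 2).mulLeft) _ _ fun u => ?_
  rw [Units.mulLeft_apply]
  congr 1
  have h5 := hdft (((d ^ 2 : (ZMod M)ˣ) : ZMod M) * u)
  rw [Units.inv_mul_cancel_left] at h5
  rw [h5]
  field_simp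

/-! ### Coefficients -/

lemma one_mem_strictPeriods_Gamma1 (N : ℕ) :
    (1 : ℝ) ∈ (Gamma1 N : Subgroup (GL (Fin 2) ℝ)).strictPeriods := by
  have hT : ModularGroup.T ∈ Gamma1 N := by
    rw [Gamma1_mem]
    simp [ModularGroup.T]
  have h := Subgroup.strictPeriods_eq_zmultiples_one_of_T_mem hT
  rw [h]
  exact AddSubgroup.mem_zmultiples (1 : ℝ)

lemma QSer.periodic {f : ℍ → ℂ} {a : ℕ → ℂ} (hf : QSer f a) :
    Periodic (f ∘ ofComplex) (1 : ℝ) := by
  apply Fermat.Agent.S21per.periodic_comp_ofComplex_of_vadd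
  intro τ
  have h1 := hf ((1 : ℝ) +ᵥ τ)
  have h2 : ∀ m : ℕ, a m • 𝕢 1 (((1 : ℝ) +ᵥ τ : ℍ) : ℂ) ^ m = a m • 𝕢 1 τ ^ m := by
    intro m
    congr 2
    rw [UpperHalfPlane.coe_vadd, Function.Periodic.qParam, Function.Periodic.qParam]
    rw [show 2 * (π : ℂ) * Complex.I * (((1 : ℝ) : ℂ) + τ) / ((1 : ℝ) : ℂ) =
      2 * (π : ℂ) * Complex.I * τ / ((1 : ℝ) : ℂ) + 2 * π * Complex.I by push_cast; ring,
      Complex.exp_add, Complex.exp_two_pi_mul_I, mul_one]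
  simp only [h2] at h1
  exact h1.unique (hf τ)

lemma QSer.qCoeff_eq {f : ℍ → ℂ} {a : ℕ → ℂ} (hf : QSer f a) (hd : MDiff f) (n : ℕ) :
    qCoeff f n = a n := by
  have h1 : IsBoundedAtImInfty f :=
    UpperHalfPlane.isBoundedAtImInfty_of_hasSum_qExpansion (h := 1) one_pos hf
  have h2 : AnalyticAt ℂ (UpperHalfPlane.cuspFunction 1 f) 0 :=
    UpperHalfPlane.analyticAt_cuspFunction_zero (h := 1) one_pos hf.periodic hd h1
  let _ : FunLike (ℍ → ℂ) ℍ ℂ := ⟨fun f => f, fun _ _ h => h⟩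
  have h3 := UpperHalfPlane.qExpansion_coeff_unique (F := ℍ → ℂ) (h := 1) (f := f) (c := a)
    one_pos h2 hf n
  exact h3.symm

lemma qParam_heckeDiag {p : ℕ} (hp : p ≠ 0) (τ : ℍ) :
    𝕢 1 ((ModularForm.heckeDiagMatrix p • τ : ℍ) : ℂ) = 𝕢 1 τ ^ p := by
  rw [ModularForm.coe_heckeDiagMatrix_smul hp, Function.Periodic.qParam,
    Function.Periodic.qParam, ← Complex.exp_nat_mul]
  congr 1
  push_cast
  ring

lemma QSer.slash_heckeDiag {f : ℍ → ℂ} {a : ℕ → ℂ} (hf : QSer f a) {p : ℕ} (hp : p ≠ 0) :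
    QSer (f ∣[(2 : ℤ)] ModularForm.heckeDiagMatrix p)
      (fun n => if p ∣ n then p * a (n / p) else 0) := fun τ => by
  rw [ModularForm.slash_heckeDiagMatrix_apply 2 hp]
  have h := (hf (ModularForm.heckeDiagMatrix p • τ)).mul_left ((p : ℂ) ^ ((2 : ℤ) - 1))
  have hp0 := Nat.pos_of_ne_zero hp
  have hinj : Function.Injective (fun m : ℕ => p * m) := fun a b h =>
    Nat.eq_of_mul_eq_mul_left hp0 h
  have h3 : (fun m : ℕ => (p : ℂ) ^ ((2 : ℤ) - 1) *
      (a m • 𝕢 1 ((ModularForm.heckeDiagMatrix p • τ : ℍ) : ℂ) ^ m)) =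
      (fun n : ℕ => (if p ∣ n then (p : ℂ) * a (n / p) else 0) • 𝕢 1 τ ^ n) ∘
      (fun m : ℕ => p * m) := by
    funext m
    simp only [Function.comp_apply]
    rw [if_pos (Dvd.intro m rfl), Nat.mul_div_cancel_left m hp0, qParam_heckeDiag hp, ← pow_mul,
      show (2 : ℤ) - 1 = 1 from rfl, zpow_one]
    simp only [smul_eq_mul]
    ring
  rw [h3] at h
  refine (hinj.hasSum_iff fun n hn => ?_).mp h
  have h4 : ¬ p ∣ n := by
    rintro ⟨m, rfl⟩
    exact hn ⟨m, rfl⟩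
  simp [h4]

/-! ### Eigenforms -/

open Fermat.Agent.X1

/-- Eigenforms away from the level with nebentypus `ψ⁻²`. -/
structure NebEig (ψ : DirichletCharacter ℂ M) (lam : ℕ → ℂ) (f : CuspForm (Gamma1 M) 2) :
    Prop where
  neb : ∀ u : (ZMod M)ˣ, (ψ u) ^ 2 • dCusp M (Gamma1 M) 2 u f = f
  eig : ∀ (p : ℕ) [Fact p.Prime], ¬ p ∣ M → tCusp M (Gamma1 M) 2 p f = lam p • f

namespace NebEig

variable {ψ : DirichletCharacter ℂ M} {lam : ℕ → ℂ} {f : CuspForm (Gamma1 M) 2}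

omit [NeZero M] in
lemma psi_ne_zero (ψ : DirichletCharacter ℂ M) (u : (ZMod M)ˣ) : ψ (u : ZMod M) ≠ 0 :=
  (u.isUnit.map ψ).ne_zero

lemma slash_dia (h : NebEig ψ lam f) (u : (ZMod M)ˣ) :
    (f : ℍ → ℂ) ∣[(2 : ℤ)] diaMat M u = (ψ (u : ZMod M) ^ 2)⁻¹ • (f : ℍ → ℂ) := by
  rw [eq_inv_smul_iff₀ (pow_ne_zero 2 (psi_ne_zero ψ u))]
  have h1 := congrArg (fun g : CuspForm (Gamma1 M) 2 => (g : ℍ → ℂ)) (h.neb u)
  rw [← coe_dCusp]
  exact h1

lemma slash (h : NebEig ψ lam f) {γ : SL(2, ℤ)} (hγ : γ ∈ Gamma0 M) :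
    (ψ ((γ 1 1 : ℤ) : ZMod M)) ^ 2 • ((f : ℍ → ℂ) ∣[(2 : ℤ)] γ) = f := by
  have had := gamma0_00_mul_11 hγ
  obtain ⟨d, hd⟩ : ∃ d : (ZMod M)ˣ, (d : ZMod M) = ((γ 1 1 : ℤ) : ZMod M) :=
    ⟨Units.mkOfMulEqOne _ _ (by rw [mul_comm]; exact had), rfl⟩
  have h1 : γ * (diaMat M d)⁻¹ ∈ Gamma1 M := by
    refine mem_gamma1_of_mem_gamma0 (mul_mem hγ (inv_mem (diaMat_mem d))) ?_
    rw [mul_inv_00 hγ (diaMat_mem d), diaMat_11, hd, had]
  have h2 : (f : ℍ → ℂ) ∣[(2 : ℤ)] γ = (f : ℍ → ℂ) ∣[(2 : ℤ)] diaMat M d := by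
    conv_lhs => rw [show γ = (γ * (diaMat M d)⁻¹) * diaMat M d by group]
    rw [SlashAction.slash_mul, slash_of_form f h1]
  rw [h2, h.slash_dia, ← hd, smul_inv_smul₀ (pow_ne_zero 2 (psi_ne_zero ψ d))]

lemma qser (f : CuspForm (Gamma1 M) 2) : QSer f (qCoeff f) :=
  QSer.of_form (one_mem_strictPeriods_Gamma1 M) f

/-- The recursion for the coefficients. -/
lemma coeff_mul (h : NebEig ψ lam f) (p : ℕ) [hp : Fact p.Prime] (hpM : ¬ p ∣ M) (n : ℕ) :
    qCoeff f (p * n) = lam p * qCoeff f n -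
      (ψ (p : ZMod M) ^ 2)⁻¹ * (if p ∣ n then p * qCoeff f (n / p) else 0) := by
  have hc : p.Coprime M := (Nat.Prime.coprime_iff_not_dvd hp.out).mpr hpM
  have h1 : ((tCusp M (Gamma1 M) 2 p f : CuspForm (Gamma1 M) 2) : ℍ → ℂ) =
      ((lam p • f : CuspForm (Gamma1 M) 2) : ℍ → ℂ) := by rw [h.eig p hpM]
  rw [coe_tCusp, slashSum_hecke 2 p hpM, h.slash_dia, coe_pUnit hc,
    smul_slash_pos _ _ (ModularForm.det_heckeDiagMatrix_pos p)] at h1
  have h2 : ModularForm.heckeU 2 p f = (lam p • (f : ℍ → ℂ)) +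
      (-(ψ (p : ZMod M) ^ 2)⁻¹) • ((f : ℍ → ℂ) ∣[(2 : ℤ)] ModularForm.heckeDiagMatrix p) := by
    rw [eq_comm, ← sub_eq_zero]
    have h3 : ((lam p • f : CuspForm (Gamma1 M) 2) : ℍ → ℂ) = lam p • (f : ℍ → ℂ) := rfl
    rw [h3] at h1
    rw [← h1]
    module
  have h3 : QSer (ModularForm.heckeU 2 p f) (lam p • qCoeff f + (-(ψ (p : ZMod M) ^ 2)⁻¹) •
      fun n => if p ∣ n then p * qCoeff f (n / p) else 0) := by
    rw [h2]
    exact ((qser f).smul _).add (((qser f).slash_heckeDiag hp.out.ne_zero).smul _)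
  have h4 : MDiff (ModularForm.heckeU 2 p f) := by
    rw [h2]
    exact (f.holo'.const_smul _).add ((f.holo'.slash 2 _).const_smul _)
  have h5 := h3.qCoeff_eq h4 n
  rw [ModularFormClass.qCoeff_heckeU f (one_mem_strictPeriods_Gamma1 M) hp.out.ne_zero,
    ModularForm.coeffHeckeU, mul_comm n p] at h5
  rw [h5]
  simp only [Pi.add_apply, Pi.smul_apply, smul_eq_mul]
  ring

/-- `U_p` preserves eigenforms away from the level. -/
lemma uOp (h : NebEig ψ lam f) (q : ℕ) [hq : Fact q.Prime] :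
    NebEig ψ lam (tCusp M (Gamma1 M) 2 q f) where
  neb u := by
    rw [dCusp_tCusp_comm, ← map_smul, h.neb u]
  eig p _ hpM := by
    rw [tCusp_comm, h.eig p hpM, map_smul]

lemma coeff_uOp (f : CuspForm (Gamma1 M) 2) (q : ℕ) [hq : Fact q.Prime] (hqM : q ∣ M) (n : ℕ) :
    qCoeff (tCusp M (Gamma1 M) 2 q f) n = qCoeff f (q * n) := by
  rw [coe_tCusp, slashSum_hecke_of_dvd 2 q hqM,
    ModularFormClass.qCoeff_heckeU f (one_mem_strictPeriods_Gamma1 M) hq.out.ne_zero,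
    ModularForm.coeffHeckeU, mul_comm n q]

/-- We can arrange that the first coefficient does not vanish. -/
lemma exists_coeff_one_ne_zero (n : ℕ) : ∀ f : CuspForm (Gamma1 M) 2, NebEig ψ lam f → 0 < n →
    qCoeff f n ≠ 0 → ∃ g : CuspForm (Gamma1 M) 2, NebEig ψ lam g ∧ qCoeff g 1 ≠ 0 := by
  induction n using Nat.strongRecOn with
  | ind n ih =>
    intro f hf hn hne
    rcases Nat.lt_or_ge n 2 with h2 | h2
    · obtain rfl : n = 1 := by omega
      exact ⟨f, hf, hne⟩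
    · obtain ⟨p, hp, m, rfl⟩ := Nat.exists_prime_and_dvd (show n ≠ 1 by omega)
      have : Fact p.Prime := ⟨hp⟩
      have hm : 0 < m := Nat.pos_of_ne_zero (by rintro rfl; simp at hn)
      have hlt : m < p * m := by nlinarith [hp.two_le]
      by_cases hpM : p ∣ M
      · refine ih m hlt _ (hf.uOp p) hm ?_
        rwa [coeff_uOp f p hpM]
      · by_cases h0 : qCoeff f m = 0
        · rw [hf.coeff_mul p hpM, h0] at hne
          by_cases hpm : p ∣ m
          · obtain ⟨m', rfl⟩ := hpm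
            rw [if_pos (Dvd.intro m' rfl), Nat.mul_div_cancel_left _ hp.pos] at hne
            have hm' : 0 < m' := Nat.pos_of_ne_zero (by rintro rfl; simp at hm)
            refine ih m' ?_ f hf hm' ?_
            · nlinarith [hp.two_le]
            · intro h1
              rw [h1] at hne
              simp at hne
          · rw [if_neg hpm] at hne
            simp at hne
        · exact ih m hlt f hf hm h0

lemma smul (h : NebEig ψ lam f) (c : ℂ) : NebEig ψ lam (c • f) where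
  neb u := by
    rw [map_smul, smul_comm, h.neb u]
  eig p _ hpM := by
    rw [map_smul, h.eig p hpM, smul_comm]

end NebEig

/-- **Twisting away the nebentypus.** -/
theorem NebEig.exists_twist {ψ : DirichletCharacter ℂ M} {lam : ℕ → ℂ}
    {f : CuspForm (Gamma1 M) 2} (h : NebEig ψ lam f) (hf : f ≠ 0) :
    ∃ F : CuspForm (Gamma0 (M ^ 2)) 2, F.IsNormalizedEigenform ∧
      (∀ p : ℕ, p.Prime → ¬ p ∣ M → qCoeff F p = ψ (p : ZMod M) * lam p) ∧
      (∀ p : ℕ, p.Prime → p ∣ M → qCoeff F p = 0) := by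
  -- a nonzero coefficient
  obtain ⟨n, hn, hne⟩ : ∃ n : ℕ, 0 < n ∧ qCoeff f n ≠ 0 := by
    by_contra hcon
    push Not at hcon
    apply hf
    ext τ
    have h1 := NebEig.qser f τ
    have h2 : ∀ m : ℕ, qCoeff f m • 𝕢 1 τ ^ m = 0 := by
      intro m
      rcases Nat.eq_zero_or_pos m with rfl | hm
      · have h0 : qCoeff f 0 = 0 :=
          CuspFormClass.qExpansion_coeff_zero f one_pos (one_mem_strictPeriods_Gamma1 M)
        rw [h0, zero_smul]
      · rw [hcon m hm, zero_smul]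
    simp only [h2] at h1
    exact h1.unique hasSum_zero
  obtain ⟨g0, hg0, hg1⟩ := NebEig.exists_coeff_one_ne_zero n f h hn hne
  -- normalise
  obtain ⟨g, hg, hg1⟩ : ∃ g : CuspForm (Gamma1 M) 2, NebEig ψ lam g ∧ qCoeff g 1 = 1 := by
    refine ⟨(qCoeff g0 1)⁻¹ • g0, hg0.smul _, ?_⟩
    have h1 : QSer (((qCoeff g0 1)⁻¹ • g0 : CuspForm (Gamma1 M) 2) : ℍ → ℂ)
      ((qCoeff g0 1)⁻¹ • qCoeff g0) := (NebEig.qser g0).smul _
    rw [QSer.coeff_eq (one_mem_strictPeriods_Gamma1 M) h1]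
    simp only [Pi.smul_apply, smul_eq_mul]
    exact inv_mul_cancel₀ hg1
  have hM2 : NeZero (M ^ 2) := ⟨pow_ne_zero 2 (NeZero.ne M)⟩
  have hQ : QCusp (addTwist (fun x => ψ x) (g : ℍ → ℂ)) := (QCusp.of_form g).addTwist _
  let F : CuspForm (Gamma0 (M ^ 2)) 2 := hQ.toForm fun γ hγ =>
    addTwist_slash ψ (fun γ hγ => hg.slash hγ) hγ
  have hF : QSer (F : ℍ → ℂ) (fun n => ψ n * qCoeff g n) := (NebEig.qser g).addTwist _
  have hFc : ∀ n, qCoeff F n = ψ n * qCoeff g n :=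
    QSer.coeff_eq (CongruenceSubgroup.one_mem_strictPeriods_Gamma0 _) hF
  have hF1 : qCoeff F 1 = 1 := by
    rw [hFc, hg1]; simp
  let chi : Nat.Primes → ℂ := fun p =>
    if (p : ℕ) ∣ M then 0 else ψ ((p : ℕ) : ZMod M) * lam p
  have hdvd : ∀ p : ℕ, p.Prime → (p ∣ M ^ 2 ↔ p ∣ M) := fun p hp =>
    ⟨fun h => hp.dvd_of_dvd_pow h, fun h => h.trans (Dvd.intro_left (M ^ 1) (by ring))⟩
  have heig : ∀ p, FermatAgent.HeckeEigen.heckeOp (M ^ 2) 2 p F = chi p • F := by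
    intro p
    apply FermatAgent.HeckeEigen.eq_of_qCoeff_eq
    intro n
    rw [FermatAgent.HeckeEigen.qCoeff_heckeOp_two, FermatAgent.HeckeEigen.qCoeff_smul]
    have : Fact (p : ℕ).Prime := ⟨p.2⟩
    by_cases hpM : (p : ℕ) ∣ M
    · rw [if_pos ((hdvd p p.2).mpr hpM)]
      simp only [chi, if_pos hpM]
      have h0 : ψ (((p * n : ℕ)) : ZMod M) = 0 := by
        apply MulChar.map_nonunit
        rw [Nat.cast_mul]
        intro hu
        have h1 := isUnit_of_mul_isUnit_left hu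
        rw [ZMod.isUnit_iff_coprime] at h1
        exact (Nat.Prime.coprime_iff_not_dvd p.2).mp h1 hpM
      rw [hFc, h0]
      ring
    · rw [if_neg (fun h => hpM ((hdvd p p.2).mp h))]
      simp only [chi, if_neg hpM]
      have hc : (p : ℕ).Coprime M := (Nat.Prime.coprime_iff_not_dvd p.2).mpr hpM
      have hp0 : ψ (((p : ℕ)) : ZMod M) ≠ 0 := by
        have := NebEig.psi_ne_zero ψ (ZMod.unitOfCoprime p hc)
        rwa [ZMod.coe_unitOfCoprime] at this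
      simp only [hFc]
      rw [hg.coeff_mul p hpM]
      split_ifs with hpn
      · obtain ⟨m, rfl⟩ := hpn
        rw [Nat.mul_div_cancel_left _ p.2.pos]
        push_cast
        rw [map_mul, map_mul]
        field_simp
        ring
      · push_cast
        rw [map_mul]
        ring
  refine ⟨F, FermatAgent.HeckeEigen.isNormalizedEigenform_of_eigen heig hF1, ?_, ?_⟩
  · intro p hp hpM
    have := FermatAgent.HeckeEigen.qCoeff_prime_of_eigen heig ⟨p, hp⟩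
    rw [hF1, mul_one] at this
    simpa [chi, hpM] using this
  · intro p hp hpM
    have := FermatAgent.HeckeEigen.qCoeff_prime_of_eigen heig ⟨p, hp⟩
    rw [hF1, mul_one] at this
    simpa [chi, hpM] using this

end Fermat.Agent.GenES
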