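import Mathlib
import Fermat.Prelude.Def_ModularForm_HeckeOperator
import Fermat.Prelude.Def_FLTPrelim_Modularity

/-!
# Holomorphic functions vanishing at all rational cusps (weight two)
-/

set_option autoImplicit false

open UpperHalfPlane Filter Topology Complex Function CongruenceSubgroup Matrix
open scoped MatrixGroups Manifold ModularForm Real

noncomputable section

namespace Fermat.Agent.GenES

/-- Holomorphic functions vanishing (in weight two) at all rational cusps. -/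
structure QCusp (f : ℍ → ℂ) : Prop where
  mdiff : MDiff f
  zero : ∀ c : OnePoint ℝ, IsCusp c 𝒮ℒ → c.IsZeroAt f 2

/-- Rational matrices. -/
def IsRat (g : GL (Fin 2) ℝ) : Prop := ∃ g0 : GL (Fin 2) ℚ, g = g0.map (Rat.castHom ℝ)

lemma isRat_of_int {g : GL (Fin 2) ℝ} {A : Matrix (Fin 2) (Fin 2) ℤ}
    (h : (g : Matrix (Fin 2) (Fin 2) ℝ) = A.map (Int.cast)) : IsRat g := by
  have hdet : (A.map (Int.cast : ℤ → ℚ)).det ≠ 0 := by
    intro h0
    have h1 : (g : Matrix (Fin 2) (Fin 2) ℝ).det ≠ 0 := by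
      have := g.det.ne_zero
      rwa [Matrix.GeneralLinearGroup.val_det_apply] at this
    apply h1
    rw [h]
    have h2 : (A.map (Int.cast : ℤ → ℚ)).det = ((A.det : ℤ) : ℚ) := by
      rw [Matrix.det_fin_two, Matrix.det_fin_two]
      simp
    have h3 : (A.map (Int.cast : ℤ → ℝ)).det = ((A.det : ℤ) : ℝ) := by
      rw [Matrix.det_fin_two, Matrix.det_fin_two]
      simp
    rw [h2] at h0
    rw [h3]
    exact_mod_cast h0
  refine ⟨Matrix.GeneralLinearGroup.mkOfDetNeZero _ hdet, ?_⟩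
  apply Units.ext
  rw [h]
  ext i j
  simp [Matrix.GeneralLinearGroup.mkOfDetNeZero]

lemma isRat_heckeMatrix (p j : ℕ) : IsRat (ModularForm.heckeMatrix p j) := by
  rcases eq_or_ne p 0 with rfl | hp
  · rw [ModularForm.heckeMatrix_zero]
    exact isRat_of_int (A := 1) (by ext i j; fin_cases i <;> fin_cases j <;> simp)
  · refine isRat_of_int (A := !![1, (j : ℤ); 0, (p : ℤ)]) ?_
    rw [ModularForm.val_heckeMatrix hp]
    ext i j
    fin_cases i <;> fin_cases j <;> simp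

lemma isRat_heckeDiagMatrix (p : ℕ) : IsRat (ModularForm.heckeDiagMatrix p) := by
  rcases eq_or_ne p 0 with rfl | hp
  · rw [ModularForm.heckeDiagMatrix_zero]
    exact isRat_of_int (A := 1) (by ext i j; fin_cases i <;> fin_cases j <;> simp)
  · refine isRat_of_int (A := !![(p : ℤ), 0; 0, 1]) ?_
    rw [ModularForm.val_heckeDiagMatrix hp]
    ext i j
    fin_cases i <;> fin_cases j <;> simp

lemma IsRat.isCusp {g : GL (Fin 2) ℝ} (hg : IsRat g) {c : OnePoint ℝ} (hc : IsCusp c 𝒮ℒ) :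
    IsCusp (g • c) 𝒮ℒ := by
  classical
  obtain ⟨g0, rfl⟩ := hg
  rw [isCusp_SL2Z_iff] at hc ⊢
  obtain ⟨c, rfl⟩ := hc
  refine ⟨g0 • c, ?_⟩
  rw [← Rat.coe_castHom]
  exact OnePoint.map_smul (Rat.castHom ℝ) g0 c

namespace QCusp

variable {f g : ℍ → ℂ}

lemma of_form {Γ : Subgroup (GL (Fin 2) ℝ)} [Γ.IsArithmetic] (f : CuspForm Γ 2) :
    QCusp (f : ℍ → ℂ) where
  mdiff := f.holo'
  zero c hc := f.zero_at_cusps' ((Subgroup.IsArithmetic.isCusp_iff_isCusp_SL2Z Γ).mpr hc)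

lemma fn_zero : QCusp (0 : ℍ → ℂ) where
  mdiff := mdifferentiable_const
  zero c _ g _ := by
    rw [SlashAction.zero_slash]
    exact (tendsto_const_nhds : Tendsto (fun _ : ℍ => (0 : ℂ)) atImInfty (𝓝 0))

lemma add (hf : QCusp f) (hg : QCusp g) : QCusp (f + g) where
  mdiff := hf.mdiff.add hg.mdiff
  zero c hc := (hf.zero c hc).add (hg.zero c hc)

lemma smul (a : ℂ) (hf : QCusp f) : QCusp (a • f) where
  mdiff := hf.mdiff.const_smul a
  zero c hc γ hγ := by
    have h := hf.zero c hc γ hγ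
    rw [ModularForm.smul_slash]
    rw [IsZeroAtImInfty, ZeroAtFilter] at h ⊢
    have := h.const_smul (UpperHalfPlane.σ γ a)
    rwa [smul_zero] at this

lemma sum {ι : Type*} (s : Finset ι) {F : ι → ℍ → ℂ} (hF : ∀ i ∈ s, QCusp (F i)) :
    QCusp (∑ i ∈ s, F i) := by
  classical
  induction s using Finset.induction_on with
  | empty => exact fn_zero
  | insert a s ha ih =>
    rw [Finset.sum_insert ha]
    exact (hF a (Finset.mem_insert_self a s)).add
      (ih fun i hi => hF i (Finset.mem_insert_of_mem hi))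

lemma slash (hf : QCusp f) {γ : GL (Fin 2) ℝ} (hγ : IsRat γ) : QCusp (f ∣[(2 : ℤ)] γ) where
  mdiff := hf.mdiff.slash 2 γ
  zero c hc := OnePoint.IsZeroAt.smul_iff.mp (hf.zero _ (hγ.isCusp hc))

lemma sub (hf : QCusp f) (hg : QCusp g) : QCusp (f - g) := by
  have := hf.add (hg.smul (-1))
  rwa [neg_one_smul, ← sub_eq_add_neg] at this

/-- The cusp form attached to an invariant function. -/
def toForm (hf : QCusp f) {Γ : Subgroup SL(2, ℤ)} [Γ.FiniteIndex]
    (hinv : ∀ γ ∈ Γ, f ∣[(2 : ℤ)] γ = f) : CuspForm (Γ : Subgroup (GL (Fin 2) ℝ)) 2 where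
  toFun := f
  slash_action_eq' := by
    rintro _ ⟨γ, hγ, rfl⟩
    exact hinv γ hγ
  holo' := hf.mdiff
  zero_at_cusps' {c} hc := hf.zero c
    ((Subgroup.IsArithmetic.isCusp_iff_isCusp_SL2Z _).mp hc)

@[simp] lemma toForm_coe (hf : QCusp f) {Γ : Subgroup SL(2, ℤ)} [Γ.FiniteIndex]
    (hinv : ∀ γ ∈ Γ, f ∣[(2 : ℤ)] γ = f) : ⇑(hf.toForm hinv) = f := rfl

end QCusp

lemma slash_of_form {Γ : Subgroup SL(2, ℤ)} (f : CuspForm (Γ : Subgroup (GL (Fin 2) ℝ)) 2)
    {γ : SL(2, ℤ)} (hγ : γ ∈ Γ) : (f : ℍ → ℂ) ∣[(2 : ℤ)] γ = f :=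
  f.slash_action_eq' _ ⟨γ, hγ, rfl⟩

/-- Scalars commute with the slash action of matrices of positive determinant. -/
lemma smul_slash_pos (a : ℂ) (f : ℍ → ℂ) {γ : GL (Fin 2) ℝ} (hγ : 0 < γ.det.val) :
    (a • f) ∣[(2 : ℤ)] γ = a • (f ∣[(2 : ℤ)] γ) := by
  rw [ModularForm.smul_slash, UpperHalfPlane.σ, if_pos hγ]
  rfl

end Fermat.Agent.GenES
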