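import Fermat.Agent.GenES.QCusp
import Fermat.Agent.HeckeEigen.Forms
import Fermat.Agent.HeckePar.Cosets
import Mathlib.Analysis.Fourier.ZMod

/-!
# `q`-series of functions on the upper half plane and additive twists
-/

set_option autoImplicit false

open UpperHalfPlane Filter Topology Complex Function CongruenceSubgroup Matrix ModularFormClass
open scoped MatrixGroups Manifold ModularForm Real ZMod

noncomputable section

namespace Fermat.Agent.GenES

local notation "𝕢" => Function.Periodic.qParam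

/-- `f` is given by the `q`-series with coefficients `a`. -/
def QSer (f : ℍ → ℂ) (a : ℕ → ℂ) : Prop := ∀ τ : ℍ, HasSum (fun m ↦ a m • 𝕢 1 τ ^ m) (f τ)

namespace QSer

variable {f g : ℍ → ℂ} {a b : ℕ → ℂ}

lemma of_form {Γ : Subgroup (GL (Fin 2) ℝ)} [Γ.HasDetPlusMinusOne] [DiscreteTopology Γ]
    (hΓ : (1 : ℝ) ∈ Γ.strictPeriods) (f : CuspForm Γ 2) : QSer f (qCoeff f) :=
  fun τ => by
    have : Fact (IsCusp OnePoint.infty Γ) := ⟨Γ.isCusp_of_mem_strictPeriods one_pos hΓ⟩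
    exact ModularForm.hasSum_qExpansion (f := f) one_pos hΓ τ

lemma coeff_eq {Γ : Subgroup (GL (Fin 2) ℝ)} [Γ.HasDetPlusMinusOne] [DiscreteTopology Γ]
    (hΓ : (1 : ℝ) ∈ Γ.strictPeriods) {f : CuspForm Γ 2} (h : QSer f a) (n : ℕ) :
    qCoeff f n = a n :=
  (ModularFormClass.qExpansion_coeff_unique one_pos hΓ h n).symm

lemma add (hf : QSer f a) (hg : QSer g b) : QSer (f + g) (a + b) := fun τ => by
  have := (hf τ).add (hg τ)
  simpa only [Pi.add_apply, add_smul] using this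

lemma smul (c : ℂ) (hf : QSer f a) : QSer (c • f) (c • a) := fun τ => by
  have := (hf τ).const_smul c
  simpa only [Pi.smul_apply, smul_eq_mul, mul_assoc] using this

lemma zero : QSer (0 : ℍ → ℂ) 0 := fun τ => by
  simp

lemma sum {ι : Type*} (s : Finset ι) {F : ι → ℍ → ℂ} {A : ι → ℕ → ℂ}
    (h : ∀ i ∈ s, QSer (F i) (A i)) : QSer (∑ i ∈ s, F i) (∑ i ∈ s, A i) := by
  classical
  induction s using Finset.induction_on with
  | empty => exact zero
  | insert x s hx ih =>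
    rw [Finset.sum_insert hx, Finset.sum_insert hx]
    exact (h x (Finset.mem_insert_self x s)).add
      (ih fun i hi => h i (Finset.mem_insert_of_mem hi))

lemma congr_coeff (hf : QSer f a) (h : ∀ n, a n = b n) : QSer f b := by
  have : a = b := funext h
  rwa [← this]

end QSer

section translate

variable (M : ℕ) [NeZero M]

/-- translation by `u / M` -/
def tmat (u : ℤ) : GL (Fin 2) ℝ :=
  ModularForm.upperTriangularGL M u M (by
    have : (M : ℝ) ≠ 0 := by exact_mod_cast NeZero.ne M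
    exact mul_ne_zero this this)

lemma val_tmat (u : ℤ) : ((tmat M u : GL (Fin 2) ℝ) : Matrix (Fin 2) (Fin 2) ℝ) =
    !![(M : ℝ), (u : ℝ); 0, (M : ℝ)] := rfl

lemma det_tmat (u : ℤ) : (tmat M u).det.val = (M : ℝ) * M := by
  rw [Matrix.GeneralLinearGroup.val_det_apply, val_tmat, Matrix.det_fin_two_of]
  ring

lemma Mpos : (0 : ℝ) < M := by exact_mod_cast Nat.pos_of_ne_zero (NeZero.ne M)

lemma det_tmat_pos (u : ℤ) : 0 < (tmat M u).det.val := by
  rw [det_tmat]; exact mul_pos (Mpos M) (Mpos M)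

lemma isRat_tmat (u : ℤ) : IsRat (tmat M u) := by
  refine isRat_of_int (A := !![(M : ℤ), u; 0, (M : ℤ)]) ?_
  rw [val_tmat]
  ext i j
  fin_cases i <;> fin_cases j <;> simp

lemma coe_tmat_smul (u : ℤ) (τ : ℍ) : ((tmat M u • τ : ℍ) : ℂ) = τ + u / M := by
  have hM : (M : ℂ) ≠ 0 := by exact_mod_cast NeZero.ne M
  rw [UpperHalfPlane.coe_smul_of_det_pos (det_tmat_pos M u)]
  simp only [UpperHalfPlane.num, UpperHalfPlane.denom, val_tmat]
  simp
  field_simp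

lemma slash_tmat_apply (u : ℤ) (f : ℍ → ℂ) (τ : ℍ) :
    (f ∣[(2 : ℤ)] tmat M u) τ = f (tmat M u • τ) := by
  have hM : (M : ℂ) ≠ 0 := by exact_mod_cast NeZero.ne M
  have hdenom : UpperHalfPlane.denom (tmat M u) τ = M := by
    simp [UpperHalfPlane.denom, val_tmat]
  rw [ModularForm.slash_apply, UpperHalfPlane.σ, if_pos (det_tmat_pos M u), hdenom, det_tmat,
    abs_of_pos (mul_pos (Mpos M) (Mpos M))]
  simp only [ContinuousAlgEquiv.refl_apply]
  push_cast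
  have h : ((M : ℂ) * M) ^ (1 : ℤ) * (M : ℂ) ^ (-(2 : ℤ)) = 1 := by
    rw [zpow_one, _root_.zpow_neg]
    rw [show ((2 : ℤ)) = ((2 : ℕ) : ℤ) from rfl, zpow_natCast]
    field_simp
  rw [mul_assoc, h, mul_one]

lemma qParam_tmat (u : ℤ) (τ : ℍ) :
    𝕢 1 ((tmat M u • τ : ℍ) : ℂ) = ZMod.stdAddChar ((u : ℤ) : ZMod M) * 𝕢 1 τ := by
  rw [coe_tmat_smul, ZMod.stdAddChar_coe, Function.Periodic.qParam, Function.Periodic.qParam,
    ← Complex.exp_add]
  congr 1
  push_cast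
  ring

/-- Effect of translation on `q`-series. -/
lemma QSer.slash_tmat {f : ℍ → ℂ} {a : ℕ → ℂ} (hf : QSer f a) (u : ℤ) :
    QSer (f ∣[(2 : ℤ)] tmat M u)
      (fun n => ZMod.stdAddChar ((u : ZMod M) * (n : ZMod M)) * a n) := fun τ => by
  rw [slash_tmat_apply]
  have h := hf (tmat M u • τ)
  have h1 : (fun m : ℕ ↦ a m • 𝕢 1 ((tmat M u • τ : ℍ) : ℂ) ^ m) =
      fun n : ℕ => (ZMod.stdAddChar ((u : ZMod M) * (n : ZMod M)) * a n) • 𝕢 1 τ ^ n := by
    funext n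
    rw [qParam_tmat, mul_pow, smul_eq_mul, smul_eq_mul, ← AddChar.map_nsmul_eq_pow, nsmul_eq_mul,
      mul_comm (n : ZMod M)]
    ring
  rwa [h1] at h

variable {M}

/-- The additive twist of `f` by a function `h` on `ZMod M`. -/
def addTwist (h : ZMod M → ℂ) (f : ℍ → ℂ) : ℍ → ℂ :=
  ∑ u : ZMod M, ((M : ℂ)⁻¹ * 𝓕 h u) • (f ∣[(2 : ℤ)] tmat M (u.val : ℤ))

lemma QCusp.addTwist {f : ℍ → ℂ} (hf : QCusp f) (h : ZMod M → ℂ) : QCusp (addTwist h f) :=
  QCusp.sum _ fun _ _ => (hf.slash (isRat_tmat M _)).smul _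

lemma QSer.addTwist {f : ℍ → ℂ} {a : ℕ → ℂ} (hf : QSer f a) (h : ZMod M → ℂ) :
    QSer (addTwist h f) (fun n => h n * a n) := by
  refine (QSer.sum Finset.univ fun u _ =>
    (hf.slash_tmat M (u.val : ℤ)).smul ((M : ℂ)⁻¹ * 𝓕 h u)).congr_coeff fun n => ?_
  have h1 := ZMod.invDFT_apply (𝓕 h) (n : ZMod M)
  rw [LinearEquiv.symm_apply_apply] at h1
  rw [Finset.sum_apply]
  simp only [Pi.smul_apply, smul_eq_mul, Int.cast_natCast, ZMod.natCast_zmod_val]
  rw [h1, smul_eq_mul, Finset.mul_sum, Finset.sum_mul]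
  refine Finset.sum_congr rfl fun u _ => ?_
  rw [smul_eq_mul]
  ring

/-- The matrix identity behind the transformation law of twists. -/
lemma exists_tmat_mul {γ : SL(2, ℤ)} (hγ : γ ∈ Gamma0 (M ^ 2)) (u u' : ℤ)
    (hu : ((u' : ℤ) : ZMod M) = ((γ 1 1 : ℤ) : ZMod M) ^ 2 * (u : ℤ)) :
    ∃ γ' ∈ Gamma0 M, ((γ' 1 1 : ℤ) : ZMod M) = ((γ 1 1 : ℤ) : ZMod M) ∧
      tmat M u * (Matrix.SpecialLinearGroup.mapGL ℝ γ) =
        (Matrix.SpecialLinearGroup.mapGL ℝ γ') * tmat M u' := by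
  have hM : (M : ℤ) ≠ 0 := by exact_mod_cast NeZero.ne M
  have hMR : (M : ℝ) ≠ 0 := by exact_mod_cast NeZero.ne M
  have hdet : γ 0 0 * γ 1 1 - γ 0 1 * γ 1 0 = 1 := by
    have h := γ.det_coe
    rwa [Matrix.det_fin_two] at h
  obtain ⟨c0, hc0⟩ : ((M : ℤ) ^ 2) ∣ γ 1 0 := by
    rw [Gamma0_mem, ZMod.intCast_zmod_eq_zero_iff_dvd] at hγ
    exact_mod_cast hγ
  have had : ((γ 0 0 : ℤ) : ZMod M) * ((γ 1 1 : ℤ) : ZMod M) = 1 := by
    have h := congrArg (Int.cast : ℤ → ZMod M) hdet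
    rw [hc0] at h
    push_cast at h
    rw [ZMod.natCast_self] at h
    linear_combination h
  obtain ⟨w, hw⟩ : (M : ℤ) ∣ u * γ 1 1 - γ 0 0 * u' := by
    rw [← ZMod.intCast_zmod_eq_zero_iff_dvd]
    push_cast
    rw [hu]
    linear_combination -(u : ZMod M) * ((γ 1 1 : ℤ) : ZMod M) * had
  obtain ⟨γ', h00, h01, h10, h11⟩ : ∃ γ' : SL(2, ℤ), γ' 0 0 = γ 0 0 + u * M * c0 ∧
      γ' 0 1 = γ 0 1 + w - u * u' * c0 ∧ γ' 1 0 = γ 1 0 ∧ γ' 1 1 = γ 1 1 - M * c0 * u' := by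
    refine ⟨⟨!![γ 0 0 + u * M * c0, γ 0 1 + w - u * u' * c0; γ 1 0, γ 1 1 - M * c0 * u'], ?_⟩,
      rfl, rfl, rfl, rfl⟩
    rw [Matrix.det_fin_two_of]
    rw [hc0] at hdet ⊢
    linear_combination hdet + (M : ℤ) * c0 * hw
  refine ⟨γ', ?_, ?_, ?_⟩
  · rw [Gamma0_mem, h10, hc0]
    push_cast
    rw [ZMod.natCast_self]
    ring
  · rw [h11]
    push_cast
    rw [ZMod.natCast_self]
    ring
  · apply Units.ext
    rw [Units.val_mul, Units.val_mul, val_tmat, val_tmat, Fermat.Agent.HeckePar.val_mapGL,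
      Fermat.Agent.HeckePar.val_mapGL]
    have hwR : (u : ℝ) * (γ 1 1 : ℤ) - (γ 0 0 : ℤ) * u' = M * w := by exact_mod_cast hw
    have hcR : ((γ 1 0 : ℤ) : ℝ) = (M : ℝ) ^ 2 * c0 := by exact_mod_cast hc0
    ext i j
    fin_cases i <;> fin_cases j
    · simp [Matrix.mul_apply, Fin.sum_univ_two, h00, h10, hcR]
      ring
    · simp [Matrix.mul_apply, Fin.sum_univ_two, h00, h01]
      linear_combination hwR
    · simp [Matrix.mul_apply, Fin.sum_univ_two, h10]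
      ring
    · simp [Matrix.mul_apply, Fin.sum_univ_two, h10, h11, hcR]
      ring

end translate

end Fermat.Agent.GenES
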